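import Fermat.Agent.Ribet.H883.AlgPG

/-!
# RIBET / S2 / W-ALGP: the interface statement BOTH routes prove   (helper883)

* `AlgPStatementG` : `H495.AlgP.AlgPStatement` (frozen by helper495) with the three extra
  hypotheses of `A2.AlgSSStatement` which the modular instance provides anyway
  (`A2.ModSSData`: `sf`, `si`, `hτx`; finite order of `τ` from the good level):
  separating coordinates on both charts, `τ x = x`, `τ` of finite order.
* `algPStatementG_of_algPStatement` : route S-p (`AlgPStatement`) gives it (forget hypotheses);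
* `CountWLeaf` : the leaf COUNT-W in closed form;
* `algPStatementG_of_countW` : route G-p gives it from COUNT-W ALONE.

A consumer which applies ALG-p only to the modular model (`A2.ModSSData` at `q = p`) should take
`AlgPStatementG` as hypothesis: then either route closes (S2).
-/

set_option autoImplicit false
set_option linter.style.haveILetI false
set_option linter.unusedSectionVars false

namespace Fermat.Agent.Ribet.H883

open Fermat.Agent.A2 Fermat.Agent.A2.H12 Fermat.Agent.A2.Alg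
open Fermat.Agent.Ribet.H495.AlgP

/-- **ALG-p, interface statement with the hypotheses of `A2.AlgSSStatement` at `q = p`.** -/
def AlgPStatementG : Prop :=
  ∀ {R E F : Type} [CommRing R] [IsDomain R] [IsDiscreteValuationRing R] [HenselianLocalRing R]
    [IsAlgClosed (IsLocalRing.ResidueField R)]
    [Field E] [CharZero E] [Algebra R E] [IsFractionRing R E]
    [Field F] [Algebra E F] [Algebra R F] [IsScalarTower R E F]
    (w : R) (_ : Irreducible w) (p : ℕ) (_ : p.Prime) (_ : p ≠ 2)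
    (_ : (p : R) ∈ IsLocalRing.maximalIdeal R)
    (ζ : R) (_ : IsPrimitiveRoot ζ p)
    (x : F) (_ : Transcendental E x)
    (_ : FiniteDimensional (IntermediateField.adjoin E ({x} : Set F)) F)
    (_ : ∀ f : F, IsAlgebraic E f → f ∈ (algebraMap E F).range)
    (Bf Bi : Subalgebra R F)
    (_ : ∀ f : F, f ∈ Bf ↔ IsIntegral (Algebra.adjoin R ({x} : Set F)) f)
    (_ : ∀ f : F, f ∈ Bi ↔ IsIntegral (Algebra.adjoin R ({x⁻¹} : Set F)) f)
    (cf : SSChart w Bf) (ci : SSChart w Bi)
    (_ : SepCoord R E x Bf) (_ : SepCoord R E x⁻¹ Bi)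
    (τ : F ≃+* F) (τE : E ≃+* E) (τR : R ≃+* R)
    (_ : ∀ e : E, τ (algebraMap E F e) = algebraMap E F (τE e))
    (_ : ∀ r : R, τE (algebraMap R E r) = algebraMap R E (τR r))
    (_ : τ x = x)
    (_ : ∃ r : ℕ, 0 < r ∧ ∀ f : F, (⇑τ)^[r] f = f)
    (_ : ∀ b ∈ Bf, ∃ c ∈ Bf, τ b - b = algebraMap R F w * c)
    (_ : ∀ b ∈ Bi, ∃ c ∈ Bi, τ b - b = algebraMap R F w * c)
    (c : ℕ) (_ : τR ζ = ζ ^ c),
    AlgPConclusion E Bf Bi cf ci p (ζ - 1) c τ

/-- Route S-p gives `AlgPStatementG`. -/
theorem algPStatementG_of_algPStatement (h : AlgPStatement) : AlgPStatementG := by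
  intro R E F _ _ _ _ _ _ _ _ _ _ _ _ _ w hw p hp hp2 hpR ζ hζ x hx hfin hconst Bf Bi hBf hBi
    cf ci _ _ τ τE τR hτE hτR _ _ hτf hτi c hc
  exact h w hw p hp hp2 hpR ζ hζ x hx hfin hconst Bf Bi hBf hBi cf ci τ τE τR hτE hτR hτf hτi
    c hc

/-- **Leaf COUNT-W** (closed form): in the context `SSCtx w p 1 …`, with `ζ ∈ R` a primitive
`p`-th root of unity, every wild Kummer cover (`H912.IsKummerCover` for `SplitAtLam (ζ - 1) p`)
with `SheetsConclusion` and `RedConclusion` satisfies `CountConclusion`. -/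
def CountWLeaf : Prop :=
  ∀ {R E F : Type} [CommRing R] [IsDomain R] [IsDiscreteValuationRing R] [HenselianLocalRing R]
    [IsAlgClosed (IsLocalRing.ResidueField R)]
    [Field E] [CharZero E] [Algebra R E] [IsFractionRing R E]
    [Field F] [Algebra E F] [Algebra R F] [IsScalarTower R E F]
    (w : R) (p : ℕ) (x : F) (Bf Bi : Subalgebra R F)
    (τ : F ≃+* F) (τE : E ≃+* E) (τR : R ≃+* R),
    SSCtx w p 1 x Bf Bi τ τE τR → ∀ ζ : R, IsPrimitiveRoot ζ p →
      CountWFor w x p (algebraMap R F (ζ - 1))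

/-- **Route G-p gives `AlgPStatementG` from COUNT-W alone.** -/
theorem algPStatementG_of_countW (h : CountWLeaf) : AlgPStatementG := by
  intro R E F _ _ _ _ _ _ _ _ _ _ _ _ _ w hw p hp _ hpR ζ hζ x hx hfin hconst Bf Bi hBf hBi
    cf ci sf si τ τE τR hτE hτR hτx hfo hτf hτi c hc
  have ctx : SSCtx w p 1 x Bf Bi τ τE τR :=
    ⟨hw, hp, hpR, one_pos, fun hd => hp.one_lt.ne' (Nat.dvd_one.1 hd), hx, hfin, hconst, hBf,
      hBi, ⟨cf⟩, ⟨ci⟩, sf, si, hτE, hτR, hτx, hfo, hτf, hτi⟩
  exact algP_routeG ctx cf ci hζ hc (h w p x Bf Bi τ τE τR ctx ζ hζ)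

end Fermat.Agent.Ribet.H883
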