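import Fermat.Agent.Ribet.H495.AlgPSpec
import Fermat.Agent.A2.Alg.H348.ChartComp

/-!
# RIBET / WALL-p / (S2) / leaf DK: the abstract core   (helper883)

`H220.DeepKummerStatement` = level descent + MOD at `p` + THIS FILE.

Setting of `H495.AlgP.AlgPStatement` (henselian DVR `R`, two semistable charts `Bf`, `Bi`), the two
components cut out by two valuation rings `V₁`, `V₂` of `F` on BOTH charts (`S35.G.CutBy`, in
explicit form here).  Then for `f ≠ 0` with `p ∣ div f` and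

  `f = g₁ ^ p * (1 + r y₁)`, `y₁ ∈ V₁`,   `f = g₂ ^ p * (1 + r y₂)`, `y₂ ∈ V₂`,   `λ^p w ∣ r`

(`Deep V_i p r f` of `H220/S2Spec.lean`, e.g. `r = p²`) the conclusion of ALG-p gives
`τ f = h ^ p * f ^ c`.

Steps:
* `exists_sep`     : `e ≡ 1 mod w^N W₁`, `e ≡ 0 mod w^N W₂` (two discrete valuation rings);
* `merge_deep`     : weak approximation: ONE `g` with `f = g^p (1 + r z_i)`, `z_i ∈ W_i`;
* `valuationSubring_eq_of_common` : the local rings `B_{p_i}` of the two charts coincide (both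
  contain `V_i`);
* `locOneR_of_mem_locAt` : `u ∈ 1 + r B_n ⟹ LocOneR B n r u`;
* `sq_natCast_eq_mul`    : `p² = (ζ-1)^p w e`;
* `dkCore`, `dkCore_sq`.
-/

set_option autoImplicit false
set_option linter.unusedSectionVars false
set_option linter.unusedVariables false
set_option linter.style.haveILetI false

namespace Fermat.Agent.Ribet.H883.DK

open Fermat.Agent.A2 Fermat.Agent.A2.Alg Fermat.Agent.A2.H348 Fermat.Agent.A2.Alg.H348
open Fermat.Agent.Ribet.H495.AlgP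

/-! ## 1. Weak approximation for two valuation rings -/

section Merge

variable {F : Type*} [Field F]

theorem val_eq_one_of_unit (W : ValuationSubring F) {t : F} (ht0 : t ≠ 0) (ht : t ∈ W)
    (ht' : t⁻¹ ∈ W) : W.valuation t = 1 := by
  have h1 : W.valuation t ≤ 1 := (W.valuation_le_one_iff t).2 ht
  have h2 : W.valuation t⁻¹ ≤ 1 := (W.valuation_le_one_iff _).2 ht'
  rw [map_inv₀] at h2
  have h3 : W.valuation t ≠ 0 := (Valuation.ne_zero_iff _).2 ht0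
  have h4 : 1 ≤ W.valuation t := by
    have := (inv_le_one₀ (zero_lt_iff.2 h3)).1 h2
    exact this
  exact le_antisymm h1 h4

theorem val_lt_one_of_mul_inv (W : ValuationSubring F) {w s : F} (hw0 : w ≠ 0)
    (hw : W.valuation w < 1) (hs : s * w⁻¹ ∈ W) : W.valuation s < 1 := by
  have h1 : W.valuation (s * w⁻¹) ≤ 1 := (W.valuation_le_one_iff _).2 hs
  have e : s = (s * w⁻¹) * w := by field_simp
  rw [e, map_mul]
  calc W.valuation (s * w⁻¹) * W.valuation w ≤ 1 * W.valuation w := by gcongr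
    _ = W.valuation w := one_mul _
    _ < 1 := hw

/-- `e ≡ 1 mod w^N W₁`, `e ≡ 0 mod w^N W₂`. -/
theorem exists_sep (W₁ W₂ : ValuationSubring F) (w t s : F) (hw0 : w ≠ 0)
    (hw₁ : W₁.valuation w < 1) (hw₂ : W₂.valuation w < 1)
    (ht0 : t ≠ 0) (ht₁ : t ∈ W₁) (ht₁' : t⁻¹ ∈ W₁) (ht₂ : t * w⁻¹ ∈ W₂)
    (hs0 : s ≠ 0) (hs₂ : s ∈ W₂) (hs₂' : s⁻¹ ∈ W₂) (hs₁ : s * w⁻¹ ∈ W₁) (N : ℕ) :
    ∃ e : F, (e - 1) * (w ^ N)⁻¹ ∈ W₁ ∧ e * (w ^ N)⁻¹ ∈ W₂ := by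
  rcases Nat.eq_zero_or_pos N with rfl | hN
  · exact ⟨1, by simp [W₁.zero_mem], by simp [W₂.one_mem]⟩
  have hN0 : N ≠ 0 := hN.ne'
  have hvt₁ : W₁.valuation t = 1 := val_eq_one_of_unit W₁ ht0 ht₁ ht₁'
  have hvs₂ : W₂.valuation s = 1 := val_eq_one_of_unit W₂ hs0 hs₂ hs₂'
  have hvs₁ : W₁.valuation s < 1 := val_lt_one_of_mul_inv W₁ hw0 hw₁ hs₁
  have hvt₂ : W₂.valuation t < 1 := val_lt_one_of_mul_inv W₂ hw0 hw₂ ht₂
  have hd₁ : W₁.valuation (t ^ N + s ^ N) = 1 := by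
    have h1 : W₁.valuation (s ^ N) < W₁.valuation (t ^ N) := by
      rw [map_pow, map_pow, hvt₁, one_pow]
      exact pow_lt_one₀ zero_le hvs₁ hN0
    rw [Valuation.map_add_eq_of_lt_left _ h1, map_pow, hvt₁, one_pow]
  have hd₂ : W₂.valuation (t ^ N + s ^ N) = 1 := by
    have h1 : W₂.valuation (t ^ N) < W₂.valuation (s ^ N) := by
      rw [map_pow, map_pow, hvs₂, one_pow]
      exact pow_lt_one₀ zero_le hvt₂ hN0
    rw [Valuation.map_add_eq_of_lt_right _ h1, map_pow, hvs₂, one_pow]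
  have hd0 : t ^ N + s ^ N ≠ 0 := by
    intro h
    rw [h, map_zero] at hd₁
    exact zero_ne_one hd₁
  refine ⟨t ^ N / (t ^ N + s ^ N), ?_, ?_⟩
  · have e : (t ^ N / (t ^ N + s ^ N) - 1) * (w ^ N)⁻¹ =
        -((s * w⁻¹) ^ N * (t ^ N + s ^ N)⁻¹) := by
      rw [mul_pow, inv_pow]
      field_simp
      ring
    rw [e, ← W₁.valuation_le_one_iff, Valuation.map_neg, map_mul, map_pow, map_inv₀, hd₁,
      inv_one, mul_one]
    exact pow_le_one₀ zero_le ((W₁.valuation_le_one_iff _).2 hs₁)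
  · have e : t ^ N / (t ^ N + s ^ N) * (w ^ N)⁻¹ = (t * w⁻¹) ^ N * (t ^ N + s ^ N)⁻¹ := by
      rw [mul_pow, inv_pow]
      field_simp
    rw [e, ← W₂.valuation_le_one_iff, map_mul, map_pow, map_inv₀, hd₂, inv_one, mul_one]
    exact pow_le_one₀ zero_le ((W₂.valuation_le_one_iff _).2 ht₂)

/-- One approximation step: replacing the root `g'` by `g = g' (1 + r w a)`. -/
theorem approx_step (W : ValuationSubring F) (w : F) (hw : W.valuation w < 1)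
    (r : F) (hr : r ∈ W) (p : ℕ) (f g g' y a : F) (hg' : g' ≠ 0) (ha : a ∈ W)
    (hgg : g = g' * (1 + r * w * a)) (hy : y ∈ W) (hf : f = g' ^ p * (1 + r * y)) :
    g ≠ 0 ∧ ∃ z ∈ W, f = g ^ p * (1 + r * z) := by
  have hrwa : W.valuation (r * w * a) < 1 := by
    rw [mul_comm r w, mul_assoc, map_mul]
    have h1 : W.valuation (r * a) ≤ 1 := (W.valuation_le_one_iff _).2 (W.mul_mem _ _ hr ha)
    calc W.valuation w * W.valuation (r * a) ≤ W.valuation w * 1 := by gcongr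
      _ = W.valuation w := mul_one _
      _ < 1 := hw
  have hη : W.valuation (1 + r * w * a) = 1 := Valuation.map_one_add_of_lt _ hrwa
  have hη0 : (1 + r * w * a) ≠ 0 := by
    intro h
    rw [h, map_zero] at hη
    exact zero_ne_one hη
  have hηinv : (1 + r * w * a)⁻¹ ∈ W := by
    rw [← W.valuation_le_one_iff, map_inv₀, hη, inv_one]
  have hwW : w ∈ W := (W.valuation_le_one_iff _).1 hw.le
  have hg0 : g ≠ 0 := by
    rw [hgg]
    exact mul_ne_zero hg' hη0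
  refine ⟨hg0, ?_⟩
  -- `η⁻¹ = 1 + r b`
  set b : F := -(w * a * (1 + r * w * a)⁻¹) with hb
  have hbW : b ∈ W := W.neg_mem _ (W.mul_mem _ _ (W.mul_mem _ _ hwW ha) hηinv)
  have hηb : (1 + r * w * a)⁻¹ = 1 + r * b := by
    rw [hb]
    field_simp
    ring
  -- `(η⁻¹)^p = 1 + r b'`
  set b' : F := b * ∑ k ∈ Finset.range p, ((1 + r * w * a)⁻¹) ^ k with hb'
  have hb'W : b' ∈ W :=
    W.mul_mem _ _ hbW (W.toSubring.sum_mem fun k _ => W.pow_mem hηinv k)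
  have hpow : ((1 + r * w * a)⁻¹) ^ p = 1 + r * b' := by
    have h1 := mul_geom_sum ((1 + r * w * a)⁻¹) p
    have h2 : (1 + r * w * a)⁻¹ - 1 = r * b := by rw [hηb]; ring
    rw [h2] at h1
    rw [hb']
    linear_combination -h1
  refine ⟨b' + y + r * b' * y, ?_, ?_⟩
  · exact W.add_mem _ _ (W.add_mem _ _ hb'W hy) (W.mul_mem _ _ (W.mul_mem _ _ hr hb'W) hy)
  · have hg'eq : g' = g * (1 + r * w * a)⁻¹ := by
      rw [hgg]
      field_simp
    rw [hf, hg'eq, mul_pow, hpow]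
    ring

/-- **Merge** (weak approximation at two discrete valuation rings): a function which is a `p`-th
power times an element of `1 + r W_i` at `W₁` and at `W₂`, with roots `g₁`, `g₂`, is so with ONE
root `g`. -/
theorem merge_deep (W₁ W₂ : ValuationSubring F) (w t s : F) (hw0 : w ≠ 0)
    (hw₁ : W₁.valuation w < 1) (hw₂ : W₂.valuation w < 1)
    (ht0 : t ≠ 0) (ht₁ : t ∈ W₁) (ht₁' : t⁻¹ ∈ W₁) (ht₂ : t * w⁻¹ ∈ W₂)
    (hs0 : s ≠ 0) (hs₂ : s ∈ W₂) (hs₂' : s⁻¹ ∈ W₂) (hs₁ : s * w⁻¹ ∈ W₁)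
    (harch₁ : ∀ f : F, f ≠ 0 → ∃ N : ℕ, w ^ N * f⁻¹ ∈ W₁)
    (harch₂ : ∀ f : F, f ≠ 0 → ∃ N : ℕ, w ^ N * f⁻¹ ∈ W₂)
    (p : ℕ) (r : F) (hr₁ : r ∈ W₁) (hr₂ : r ∈ W₂)
    (f g₁ g₂ y₁ y₂ : F) (hg₁ : g₁ ≠ 0) (hg₂ : g₂ ≠ 0) (hy₁ : y₁ ∈ W₁) (hy₂ : y₂ ∈ W₂)
    (h₁ : f = g₁ ^ p * (1 + r * y₁)) (h₂ : f = g₂ ^ p * (1 + r * y₂)) :
    ∃ g z₁ z₂ : F, g ≠ 0 ∧ z₁ ∈ W₁ ∧ z₂ ∈ W₂ ∧ f = g ^ p * (1 + r * z₁) ∧
      f = g ^ p * (1 + r * z₂) := by
  rcases eq_or_ne r 0 with rfl | hr0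
  · refine ⟨g₁, 0, 0, hg₁, W₁.zero_mem, W₂.zero_mem, ?_, ?_⟩ <;> simpa using h₁
  have hwW₁ : w ∈ W₁ := (W₁.valuation_le_one_iff _).1 hw₁.le
  have hwW₂ : w ∈ W₂ := (W₂.valuation_le_one_iff _).1 hw₂.le
  -- the two error terms
  set c₁ : F := (g₂ - g₁) / (g₁ * r * w) with hc₁
  set c₂ : F := (g₁ - g₂) / (g₂ * r * w) with hc₂
  have hN₁ : ∃ N : ℕ, ∀ M : ℕ, N ≤ M → w ^ M * c₁ ∈ W₁ := by
    rcases eq_or_ne c₁ 0 with h | h
    · exact ⟨0, fun M _ => by rw [h, mul_zero]; exact W₁.zero_mem⟩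
    · obtain ⟨N, hN⟩ := harch₁ c₁⁻¹ (inv_ne_zero h)
      rw [inv_inv] at hN
      refine ⟨N, fun M hM => ?_⟩
      obtain ⟨d, rfl⟩ := Nat.exists_eq_add_of_le hM
      rw [pow_add, mul_comm (w ^ N), mul_assoc]
      exact W₁.mul_mem _ _ (W₁.pow_mem hwW₁ d) hN
  have hN₂ : ∃ N : ℕ, ∀ M : ℕ, N ≤ M → w ^ M * c₂ ∈ W₂ := by
    rcases eq_or_ne c₂ 0 with h | h
    · exact ⟨0, fun M _ => by rw [h, mul_zero]; exact W₂.zero_mem⟩
    · obtain ⟨N, hN⟩ := harch₂ c₂⁻¹ (inv_ne_zero h)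
      rw [inv_inv] at hN
      refine ⟨N, fun M hM => ?_⟩
      obtain ⟨d, rfl⟩ := Nat.exists_eq_add_of_le hM
      rw [pow_add, mul_comm (w ^ N), mul_assoc]
      exact W₂.mul_mem _ _ (W₂.pow_mem hwW₂ d) hN
  obtain ⟨N₁, hN₁⟩ := hN₁
  obtain ⟨N₂, hN₂⟩ := hN₂
  obtain ⟨e, he₁, he₂⟩ := exists_sep W₁ W₂ w t s hw0 hw₁ hw₂ ht0 ht₁ ht₁' ht₂ hs0 hs₂ hs₂' hs₁
    (max N₁ N₂)
  have hwN : w ^ (max N₁ N₂) ≠ 0 := pow_ne_zero _ hw0
  set g : F := e * g₁ + (1 - e) * g₂ with hg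
  have hgg₁ : g = g₁ * (1 + r * w *
      (-((e - 1) * (w ^ (max N₁ N₂))⁻¹) * (w ^ (max N₁ N₂) * c₁))) := by
    rw [hg, hc₁]
    field_simp
    ring
  have hgg₂ : g = g₂ * (1 + r * w *
      ((e * (w ^ (max N₁ N₂))⁻¹) * (w ^ (max N₁ N₂) * c₂))) := by
    rw [hg, hc₂]
    field_simp
    ring
  obtain ⟨hg0, z₁, hz₁, hfz₁⟩ := approx_step W₁ w hw₁ r hr₁ p f g g₁ y₁ _ hg₁
    (W₁.mul_mem _ _ (W₁.neg_mem _ he₁) (hN₁ _ (le_max_left _ _))) hgg₁ hy₁ h₁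
  obtain ⟨-, z₂, hz₂, hfz₂⟩ := approx_step W₂ w hw₂ r hr₂ p f g g₂ y₂ _ hg₂
    (W₂.mul_mem _ _ he₂ (hN₂ _ (le_max_right _ _))) hgg₂ hy₂ h₂
  exact ⟨g, z₁, z₂, hg0, hz₁, hz₂, hfz₁, hfz₂⟩

/-- Two discrete valuation rings (uniformiser `w`) containing a common valuation ring coincide,
one inclusion. -/
theorem le_of_le_of_disc (W W' : ValuationSubring F) (w : F) (hw0 : w ≠ 0) (hle : W ≤ W')
    (hwW : w ∈ W) (hW' : w⁻¹ ∉ W')
    (hd : ∀ f : F, f ≠ 0 → ∃ (k l : ℕ) (ε : F), ε ∈ W ∧ ε⁻¹ ∈ W ∧ f * w ^ k = w ^ l * ε) :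
    W' ≤ W := by
  intro z hz
  rcases eq_or_ne z 0 with rfl | hz0
  · exact W.zero_mem
  obtain ⟨k, l, ε, hε, hε', h⟩ := hd z hz0
  rcases le_or_gt k l with hkl | hkl
  · obtain ⟨d, rfl⟩ := Nat.exists_eq_add_of_le hkl
    have : z = w ^ d * ε := by
      have h2 : z * w ^ k = (w ^ d * ε) * w ^ k := by rw [h, pow_add]; ring
      exact mul_right_cancel₀ (pow_ne_zero _ hw0) h2
    rw [this]
    exact W.mul_mem _ _ (W.pow_mem hwW d) hε
  · exfalso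
    obtain ⟨d, rfl⟩ := Nat.exists_eq_add_of_le hkl.le
    have hd0 : d ≠ 0 := by
      rintro rfl
      exact lt_irrefl _ hkl
    obtain ⟨d', rfl⟩ := Nat.exists_eq_succ_of_ne_zero hd0
    apply hW'
    have e : w⁻¹ = w ^ d' * (z * ε⁻¹) := by
      have hε0 : ε ≠ 0 := by
        rintro rfl
        rw [mul_zero] at h
        exact (mul_ne_zero hz0 (pow_ne_zero _ hw0)) h
      have h2 : z * w ^ (d' + 1) * w ^ l = ε * w ^ l := by
        rw [mul_assoc, ← pow_add, add_comm (d' + 1) l, h]; ring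
      have h3 : z * w ^ (d' + 1) = ε := mul_right_cancel₀ (pow_ne_zero _ hw0) h2
      rw [← h3]
      field_simp
      ring
    rw [e]
    exact W'.mul_mem _ _ (W'.pow_mem (hle hwW) d') (W'.mul_mem _ _ hz (hle hε'))

/-- Two discrete valuation rings (uniformiser `w`) containing a common valuation ring coincide. -/
theorem valuationSubring_eq_of_common (V W W' : ValuationSubring F) (w : F) (hw0 : w ≠ 0)
    (hVW : V ≤ W) (hVW' : V ≤ W') (hwW : w ∈ W) (hwW' : w ∈ W') (hW : w⁻¹ ∉ W)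
    (hW' : w⁻¹ ∉ W')
    (hd : ∀ f : F, f ≠ 0 → ∃ (k l : ℕ) (ε : F), ε ∈ W ∧ ε⁻¹ ∈ W ∧ f * w ^ k = w ^ l * ε)
    (hd' : ∀ f : F, f ≠ 0 → ∃ (k l : ℕ) (ε : F), ε ∈ W' ∧ ε⁻¹ ∈ W' ∧ f * w ^ k = w ^ l * ε) :
    W = W' := by
  by_cases hle : W ≤ W'
  · exact le_antisymm hle (le_of_le_of_disc W W' w hw0 hle hwW hW' hd)
  · have hle' : W' ≤ W := by
      obtain ⟨z, hzW, hzW'⟩ := SetLike.not_le_iff_exists.1 hle
      intro z' hz'
      by_contra hz'W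
      have hz0 : z ≠ 0 := by
        rintro rfl
        exact hzW' W'.zero_mem
      have hz'0 : z' ≠ 0 := by
        rintro rfl
        exact hz'W W.zero_mem
      rcases V.mem_or_inv_mem (z / z') with h | h
      · apply hzW'
        have e : z = (z / z') * z' := by field_simp
        rw [e]
        exact W'.mul_mem _ _ (hVW' h) hz'
      · apply hz'W
        have e : z' = (z / z')⁻¹ * z := by field_simp
        rw [e]
        exact W.mul_mem _ _ (hVW h) hzW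
    exact le_antisymm (le_of_le_of_disc W' W w hw0 hle' hwW' hW hd') hle'

end Merge

/-! ## 2. Charts: the local rings of the components -/

section Chart

variable {R F : Type*} [CommRing R] [Field F] [Algebra R F]

/-- A valuation ring cutting out the component `p` is contained in `B_p`. -/
theorem mem_locAt_of_cut {w : R} {B A : Subalgebra R F} {p p' : Ideal B}
    [hp : p.IsPrime] (D : CompData A B p p' w) (hAB : A ≤ B) (V : ValuationSubring F)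
    (hle : ∀ b ∈ B, b ∈ V) (hcut : ∀ b : B, b ∈ p ↔ (b : F) * (algebraMap R F w)⁻¹ ∈ V)
    (z : F) (hz : z ∈ V) : z ∈ locAt B p := by
  rcases D.mem_or_inv_mem hAB z with h | h
  · exact h
  · by_contra hz'
    obtain ⟨s, hs, hsz⟩ := D.mul_inv_mem h (by rwa [inv_inv])
    apply hs
    rw [hcut]
    have hz0 : z ≠ 0 := by
      rintro rfl
      exact hz' (locAt B p).zero_mem
    have hw0 := D.w_ne
    have e : (s : F) * (algebraMap R F w)⁻¹ = (s : F) * (z⁻¹ * (algebraMap R F w)⁻¹) * z := by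
      field_simp
    rw [e]
    exact V.mul_mem _ _ (hle _ hsz) hz

/-- `u ∈ 1 + r B_n ⟹ LocOneR B n r u`. -/
theorem locOneR_of_mem_locAt (B : Subalgebra R F) (n : Ideal B) [n.IsPrime] (r : R) (u z : F)
    (hz : z ∈ locAt B n) (hu : u = 1 + algebraMap R F r * z) : LocOneR B n r u := by
  obtain ⟨s, hs, hsz⟩ := hz
  refine ⟨s + algebraMap R B r * ⟨(s : F) * z, hsz⟩, s, hs, ?_, ?_⟩
  · rw [add_sub_cancel_left]
    exact Ideal.mul_mem_right _ _ (Ideal.mem_span_singleton_self _)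
  · rw [hu]
    push_cast
    ring

/-- The valuation of the uniformiser at a component. -/
theorem val_w_lt_one {w : R} {B A : Subalgebra R F} {p p' : Ideal B}
    [hp : p.IsPrime] (D : CompData A B p p' w) (hAB : A ≤ B) :
    (D.valuationSubring hAB).valuation (algebraMap R F w) < 1 := by
  have h1 : (D.valuationSubring hAB).valuation (algebraMap R F w) ≤ 1 :=
    ((D.valuationSubring hAB).valuation_le_one_iff _).2 ((locAt B p).algebraMap_mem w)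
  rcases h1.lt_or_eq with h | h
  · exact h
  · exfalso
    apply D.w_inv_notMem
    have : (algebraMap R F w)⁻¹ ∈ D.valuationSubring hAB := by
      rw [← ValuationSubring.valuation_le_one_iff, map_inv₀, h, inv_one]
    exact this

/-- The local ring of a component is archimedean with respect to `w`. -/
theorem arch_locAt {w : R} {B A : Subalgebra R F} {p p' : Ideal B}
    [hp : p.IsPrime] (D : CompData A B p p' w) (hAB : A ≤ B) (f : F) (hf : f ≠ 0) :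
    ∃ N : ℕ, algebraMap R F w ^ N * f⁻¹ ∈ D.valuationSubring hAB := by
  obtain ⟨k, l, ε, hε, hε', h⟩ := D.exists_zpow_mul hAB hf
  refine ⟨l, ?_⟩
  have hw0 := D.w_ne
  have hε0 : ε ≠ 0 := by
    rintro rfl
    rw [mul_zero] at h
    exact (mul_ne_zero hf (pow_ne_zero _ hw0)) h
  have e : algebraMap R F w ^ l * f⁻¹ = algebraMap R F w ^ k * ε⁻¹ := by
    have h2 : algebraMap R F w ^ l = f * algebraMap R F w ^ k * ε⁻¹ := by
      rw [h]
      field_simp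
    rw [h2]
    field_simp
  rw [e]
  exact (locAt B p).mul_mem ((locAt B p).pow_mem ((locAt B p).algebraMap_mem w) k) hε'

end Chart

/-! ## 3. `p² ∈ λ^p w R` -/

section Lam

variable {R : Type*} [CommRing R] [IsDomain R]

/-- `p = (ζ - 1) ^ (p - 1) · unit` for a primitive `p`-th root of unity `ζ` of a domain. -/
theorem natCast_eq_lam_pow_mul {p : ℕ} (hp : p.Prime) {ζ : R} (hζ : IsPrimitiveRoot ζ p) :
    ∃ u : R, IsUnit u ∧ (p : R) = (ζ - 1) ^ (p - 1) * u := by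
  classical
  have : Fact p.Prime := ⟨hp⟩
  have h1 : (p : R) = ∏ μ ∈ primitiveRoots p R, (1 - μ) := by
    have h2 := congrArg (Polynomial.eval 1)
      (Polynomial.cyclotomic_eq_prod_X_sub_primitiveRoots (K := R) hζ)
    rw [Polynomial.eval_one_cyclotomic_prime] at h2
    rw [h2, Polynomial.eval_prod]
    simp
  have h3 : ∀ μ ∈ primitiveRoots p R, ∃ v : R, IsUnit v ∧ 1 - μ = (ζ - 1) * v := by
    intro μ hμ
    have hμ' : IsPrimitiveRoot μ p := (mem_primitiveRoots hp.pos).1 hμ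
    have : NeZero p := ⟨hp.ne_zero⟩
    obtain ⟨j, -, rfl⟩ := hζ.eq_pow_of_pow_eq_one hμ'.pow_eq_one
    have hj : ζ ^ j ≠ 1 := hμ'.ne_one hp.one_lt
    have hcop : j.Coprime p := by
      rw [Nat.coprime_comm, hp.coprime_iff_not_dvd]
      intro hdvd
      obtain ⟨k, rfl⟩ := hdvd
      exact hj (by rw [pow_mul, hζ.pow_eq_one, one_pow])
    obtain ⟨ε, hε⟩ := hζ.associated_sub_one_pow_sub_one_of_coprime hcop
    refine ⟨-ε, ε.isUnit.neg, ?_⟩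
    rw [mul_neg, hε]
    ring
  choose! v hv using h3
  refine ⟨∏ μ ∈ primitiveRoots p R, v μ, ?_, ?_⟩
  · refine Finset.prod_induction v IsUnit (fun a b ha hb => ha.mul hb) isUnit_one ?_
    intro μ hμ
    exact (hv μ hμ).1
  · rw [h1, Finset.prod_congr rfl (fun μ hμ => (hv μ hμ).2), Finset.prod_mul_distrib,
      Finset.prod_const, hζ.card_primitiveRoots, Nat.totient_prime hp]

/-- `p² = (ζ - 1)^p · w · e` in a discrete valuation ring of residue characteristic `p ≥ 3`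
containing a primitive `p`-th root of unity `ζ`. -/
theorem sq_natCast_eq_mul [IsDiscreteValuationRing R] (w : R) (hw : Irreducible w) (p : ℕ)
    (hp : p.Prime) (hp2 : p ≠ 2) (hpR : (p : R) ∈ IsLocalRing.maximalIdeal R) (ζ : R)
    (hζ : IsPrimitiveRoot ζ p) : ∃ e : R, (p : R) ^ 2 = ((ζ - 1) ^ p * w) * e := by
  obtain ⟨u, hu, hpu⟩ := natCast_eq_lam_pow_mul hp hζ
  have hlam : (ζ - 1) ∈ IsLocalRing.maximalIdeal R := by
    have h1 : (ζ - 1) ^ (p - 1) ∈ IsLocalRing.maximalIdeal R := by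
      obtain ⟨u', rfl⟩ := hu
      have : (ζ - 1) ^ (p - 1) = (p : R) * ((u'⁻¹ : Rˣ) : R) := by
        rw [hpu, mul_assoc, Units.mul_inv, mul_one]
      rw [this]
      exact Ideal.mul_mem_right _ _ hpR
    exact (IsLocalRing.maximalIdeal.isMaximal R).isPrime.mem_of_pow_mem _ h1
  rw [hw.maximalIdeal_eq, Ideal.mem_span_singleton'] at hlam
  obtain ⟨k, hk⟩ := hlam
  have h3 : 3 ≤ p := by
    have := hp.two_le
    omega
  obtain ⟨q, rfl⟩ := Nat.exists_eq_add_of_le h3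
  refine ⟨k * (ζ - 1) ^ q * u ^ 2, ?_⟩
  have e1 : 3 + q - 1 = q + 2 := by omega
  rw [e1] at hpu
  rw [hpu]
  have e2 : ((ζ - 1) ^ (q + 2) * u) ^ 2 =
      (ζ - 1) ^ (3 + q) * (ζ - 1) * ((ζ - 1) ^ q * u ^ 2) := by ring
  rw [e2, ← hk]
  ring

end Lam

/-! ## 4. The core -/

section Core

variable {R E F : Type*} [CommRing R] [IsDomain R] [IsDiscreteValuationRing R]
  [Field E] [Algebra R E] [IsFractionRing R E]
  [Field F] [Algebra E F] [Algebra R F] [IsScalarTower R E F]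

theorem divisibleDiv_of_mul_pow {m : ℕ} {f g u : F} (hg : g ≠ 0) (hfu : f = g ^ m * u)
    (h : DivisibleDiv E m f) : DivisibleDiv E m u := by
  intro V hV hE
  obtain ⟨h', ε, hh', hε, hε', hf⟩ := h V hV hE
  refine ⟨h' * g⁻¹, ε, mul_ne_zero hh' (inv_ne_zero hg), hε, hε', ?_⟩
  have hgm : g ^ m ≠ 0 := pow_ne_zero _ hg
  have : u = f * (g ^ m)⁻¹ := by
    rw [hfu]
    field_simp
  rw [this, hf, mul_pow, inv_pow]
  ring

/-- **DK, abstract core.**  The two components of both charts are cut out by the valuation rings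
`V₁`, `V₂`; `f` is a `p`-th power times an element of `1 + r V_i` at `V₁` and at `V₂`, with
`λ^p w ∣ r`, and `p ∣ div f`.  Then the conclusion of ALG-p applies to `f`:
`τ f = h ^ p * f ^ c`. -/
theorem dkCore (w : R) (p : ℕ) (lam : R) (x : F) (Bf Bi : Subalgebra R F)
    (hCf : ChartCtx E w x Bf) (hCi : ChartCtx E w x⁻¹ Bi)
    (cf : SSChart w Bf) (ci : SSChart w Bi) (V₁ V₂ : ValuationSubring F)
    (hfle₁ : ∀ b ∈ Bf, b ∈ V₁) (hfle₂ : ∀ b ∈ Bf, b ∈ V₂)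
    (hfcut₁ : ∀ b : Bf, b ∈ cf.p₁ ↔ (b : F) * (algebraMap R F w)⁻¹ ∈ V₁)
    (hfcut₂ : ∀ b : Bf, b ∈ cf.p₂ ↔ (b : F) * (algebraMap R F w)⁻¹ ∈ V₂)
    (hile₁ : ∀ b ∈ Bi, b ∈ V₁) (hile₂ : ∀ b ∈ Bi, b ∈ V₂)
    (hicut₁ : ∀ b : Bi, b ∈ ci.p₁ ↔ (b : F) * (algebraMap R F w)⁻¹ ∈ V₁)
    (hicut₂ : ∀ b : Bi, b ∈ ci.p₂ ↔ (b : F) * (algebraMap R F w)⁻¹ ∈ V₂)
    (c : ℕ) (τ : F ≃+* F) (hAlg : AlgPConclusion E Bf Bi cf ci p lam c τ)
    (r : R) (hr : lam ^ p * w ∣ r)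
    (f : F) (hf : f ≠ 0) (hdiv : DivisibleDiv E p f)
    (h₁ : ∃ g y : F, g ≠ 0 ∧ y ∈ V₁ ∧ f = g ^ p * (1 + algebraMap R F r * y))
    (h₂ : ∃ g y : F, g ≠ 0 ∧ y ∈ V₂ ∧ f = g ^ p * (1 + algebraMap R F r * y)) :
    ∃ h : F, h ≠ 0 ∧ τ f = h ^ p * f ^ c := by
  haveI := cf.prime₁
  haveI := cf.prime₂
  haveI := ci.prime₁
  haveI := ci.prime₂
  have hABf := adjoin_le_of_ctx hCf
  have hABi := adjoin_le_of_ctx hCi
  have D1f := compData₁ hCf cf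
  have D2f := compData₂ hCf cf
  have D1i := compData₁ hCi ci
  have D2i := compData₂ hCi ci
  have hw0 : algebraMap R F w ≠ 0 := D1f.w_ne
  -- the local rings of the components
  set W₁ : ValuationSubring F := D1f.valuationSubring hABf with hW₁
  set W₂ : ValuationSubring F := D2f.valuationSubring hABf with hW₂
  have hV₁W₁ : V₁ ≤ W₁ := fun z hz => mem_locAt_of_cut D1f hABf V₁ hfle₁ hfcut₁ z hz
  have hV₂W₂ : V₂ ≤ W₂ := fun z hz => mem_locAt_of_cut D2f hABf V₂ hfle₂ hfcut₂ z hz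
  have hV₁W₁i : V₁ ≤ D1i.valuationSubring hABi :=
    fun z hz => mem_locAt_of_cut D1i hABi V₁ hile₁ hicut₁ z hz
  have hV₂W₂i : V₂ ≤ D2i.valuationSubring hABi :=
    fun z hz => mem_locAt_of_cut D2i hABi V₂ hile₂ hicut₂ z hz
  have hE₁ : W₁ = D1i.valuationSubring hABi :=
    valuationSubring_eq_of_common V₁ W₁ _ (algebraMap R F w) hw0 hV₁W₁ hV₁W₁i
      ((locAt Bf cf.p₁).algebraMap_mem w) ((locAt Bi ci.p₁).algebraMap_mem w)
      D1f.w_inv_notMem D1i.w_inv_notMem (fun f hf => D1f.exists_zpow_mul hABf hf)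
      (fun f hf => D1i.exists_zpow_mul hABi hf)
  have hE₂ : W₂ = D2i.valuationSubring hABi :=
    valuationSubring_eq_of_common V₂ W₂ _ (algebraMap R F w) hw0 hV₂W₂ hV₂W₂i
      ((locAt Bf cf.p₂).algebraMap_mem w) ((locAt Bi ci.p₂).algebraMap_mem w)
      D2f.w_inv_notMem D2i.w_inv_notMem (fun f hf => D2f.exists_zpow_mul hABf hf)
      (fun f hf => D2i.exists_zpow_mul hABi hf)
  -- separating elements
  obtain ⟨t, ht₂, ht₁⟩ := D1f.exists_notMem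
  obtain ⟨s, hs₁, hs₂⟩ := D2f.exists_notMem
  have ht0 : (t : F) ≠ 0 := coe_ne_zero_of_notMem cf.p₁ ht₁
  have hs0 : (s : F) ≠ 0 := coe_ne_zero_of_notMem cf.p₂ hs₂
  obtain ⟨g₁, y₁, hg₁, hy₁, hf₁⟩ := h₁
  obtain ⟨g₂, y₂, hg₂, hy₂, hf₂⟩ := h₂
  obtain ⟨g, z₁, z₂, hg0, hz₁, hz₂, hfz₁, hfz₂⟩ :=
    merge_deep W₁ W₂ (algebraMap R F w) (t : F) (s : F) hw0 (val_w_lt_one D1f hABf)
      (val_w_lt_one D2f hABf) ht0 (le_locAt cf.p₁ t.2) (inv_mem_locAt cf.p₁ ht₁)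
      (hV₂W₂ ((hfcut₂ t).1 ht₂)) hs0 (le_locAt cf.p₂ s.2) (inv_mem_locAt cf.p₂ hs₂)
      (hV₁W₁ ((hfcut₁ s).1 hs₁)) (arch_locAt D1f hABf) (arch_locAt D2f hABf) p
      (algebraMap R F r) ((locAt Bf cf.p₁).algebraMap_mem r) ((locAt Bf cf.p₂).algebraMap_mem r)
      f g₁ g₂ y₁ y₂ hg₁ hg₂ (hV₁W₁ hy₁) (hV₂W₂ hy₂) hf₁ hf₂
  -- the normalised function
  obtain ⟨e, rfl⟩ := hr
  have hgp : g ^ p ≠ 0 := pow_ne_zero _ hg0
  have hz₁' : algebraMap R F e * z₁ ∈ W₁ := W₁.mul_mem _ _ ((locAt Bf cf.p₁).algebraMap_mem e) hz₁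
  have hz₂' : algebraMap R F e * z₂ ∈ W₂ := W₂.mul_mem _ _ ((locAt Bf cf.p₂).algebraMap_mem e) hz₂
  have hu₁ : 1 + algebraMap R F (lam ^ p * w * e) * z₁ =
      1 + algebraMap R F (lam ^ p * w) * (algebraMap R F e * z₁) := by
    rw [map_mul (algebraMap R F) (lam ^ p * w) e]
    ring
  have hu₂ : 1 + algebraMap R F (lam ^ p * w * e) * z₁ =
      1 + algebraMap R F (lam ^ p * w) * (algebraMap R F e * z₂) := by
    have h12 : 1 + algebraMap R F (lam ^ p * w * e) * z₁ =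
        1 + algebraMap R F (lam ^ p * w * e) * z₂ :=
      mul_left_cancel₀ hgp (hfz₁.symm.trans hfz₂)
    rw [h12, map_mul (algebraMap R F) (lam ^ p * w) e]
    ring
  have hu0 : 1 + algebraMap R F (lam ^ p * w * e) * z₁ ≠ 0 := by
    intro h
    rw [h, mul_zero] at hfz₁
    exact hf hfz₁
  have hdivu : DivisibleDiv E p (1 + algebraMap R F (lam ^ p * w * e) * z₁) :=
    divisibleDiv_of_mul_pow hg0 hfz₁ hdiv
  have hDf : DeepOne Bf cf p lam (1 + algebraMap R F (lam ^ p * w * e) * z₁) :=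
    ⟨locOneR_of_mem_locAt Bf cf.p₁ _ _ _ hz₁' hu₁, locOneR_of_mem_locAt Bf cf.p₂ _ _ _ hz₂' hu₂⟩
  have hDi : DeepOne Bi ci p lam (1 + algebraMap R F (lam ^ p * w * e) * z₁) := by
    rw [hE₁] at hz₁'
    rw [hE₂] at hz₂'
    exact ⟨locOneR_of_mem_locAt Bi ci.p₁ _ _ _ hz₁' hu₁,
      locOneR_of_mem_locAt Bi ci.p₂ _ _ _ hz₂' hu₂⟩
  obtain ⟨h, hh0, hτ⟩ := hAlg _ hu0 hdivu hDf hDi
  refine ⟨τ g * h * (g ^ c)⁻¹, ?_, ?_⟩
  · exact mul_ne_zero (mul_ne_zero ((map_ne_zero_iff τ τ.injective).2 hg0) hh0)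
      (inv_ne_zero (pow_ne_zero _ hg0))
  · have hgc : g ^ c ≠ 0 := pow_ne_zero _ hg0
    have e1 : τ f = τ g ^ p * τ (1 + algebraMap R F (lam ^ p * w * e) * z₁) := by
      conv_lhs => rw [hfz₁]
      rw [map_mul, map_pow]
    rw [e1, hτ]
    conv_rhs => rw [hfz₁]
    have hgpc : g ^ (p * c) ≠ 0 := pow_ne_zero _ hg0
    rw [mul_pow, mul_pow, mul_pow, inv_pow, ← pow_mul, ← pow_mul, mul_comm c p]
    field_simp

/-- **DK, abstract core at depth `p²`** (`λ = ζ - 1`, `p ≥ 3`). -/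
theorem dkCore_sq (w : R) (hw : Irreducible w) (p : ℕ)
    (hp : p.Prime) (hp2 : p ≠ 2) (hpR : (p : R) ∈ IsLocalRing.maximalIdeal R) (ζ : R)
    (hζ : IsPrimitiveRoot ζ p) (x : F) (Bf Bi : Subalgebra R F)
    (hCf : ChartCtx E w x Bf) (hCi : ChartCtx E w x⁻¹ Bi)
    (cf : SSChart w Bf) (ci : SSChart w Bi) (V₁ V₂ : ValuationSubring F)
    (hfle₁ : ∀ b ∈ Bf, b ∈ V₁) (hfle₂ : ∀ b ∈ Bf, b ∈ V₂)
    (hfcut₁ : ∀ b : Bf, b ∈ cf.p₁ ↔ (b : F) * (algebraMap R F w)⁻¹ ∈ V₁)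
    (hfcut₂ : ∀ b : Bf, b ∈ cf.p₂ ↔ (b : F) * (algebraMap R F w)⁻¹ ∈ V₂)
    (hile₁ : ∀ b ∈ Bi, b ∈ V₁) (hile₂ : ∀ b ∈ Bi, b ∈ V₂)
    (hicut₁ : ∀ b : Bi, b ∈ ci.p₁ ↔ (b : F) * (algebraMap R F w)⁻¹ ∈ V₁)
    (hicut₂ : ∀ b : Bi, b ∈ ci.p₂ ↔ (b : F) * (algebraMap R F w)⁻¹ ∈ V₂)
    (c : ℕ) (τ : F ≃+* F) (hAlg : AlgPConclusion E Bf Bi cf ci p (ζ - 1) c τ)
    (f : F) (hf : f ≠ 0) (hdiv : DivisibleDiv E p f)
    (h₁ : ∃ g y : F, g ≠ 0 ∧ y ∈ V₁ ∧ f = g ^ p * (1 + (p : F) ^ 2 * y))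
    (h₂ : ∃ g y : F, g ≠ 0 ∧ y ∈ V₂ ∧ f = g ^ p * (1 + (p : F) ^ 2 * y)) :
    ∃ h : F, h ≠ 0 ∧ τ f = h ^ p * f ^ c := by
  obtain ⟨e, he⟩ := sq_natCast_eq_mul w hw p hp hp2 hpR ζ hζ
  have hcast : algebraMap R F ((p : R) ^ 2) = (p : F) ^ 2 := by
    rw [map_pow, map_natCast]
  refine dkCore w p (ζ - 1) x Bf Bi hCf hCi cf ci V₁ V₂ hfle₁ hfle₂ hfcut₁ hfcut₂ hile₁ hile₂
    hicut₁ hicut₂ c τ hAlg ((p : R) ^ 2) ⟨e, he⟩ f hf hdiv ?_ ?_
  · rw [hcast]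
    exact h₁
  · rw [hcast]
    exact h₂

end Core

end Fermat.Agent.Ribet.H883.DK
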