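import Fermat.Agent.Ribet.H883.SplitW
import Fermat.Agent.Ribet.H912.CoverW
import Fermat.Agent.A2.H373.Sheets

/-!
# RIBET / S2 / W-ALGP, leaf SHEETS-W   (helper883)

`SheetsConclusion L w x` (of `A2/H12/GSpec.lean`) for a WILD Kummer cover
`L = F(g_i^{1/p})`, `p` prime (possibly the residue characteristic), `ζ ∈ R` a primitive `p`-th
root of unity, every `g_i` split at every sheet `V` of `F` in the sense of
`H912.SplitAtLam (ζ - 1) p V` (`g_i ≡ u^p mod (ζ - 1)^p 𝔪_V`, `u ∈ Vˣ`).

* `sheetsConclusion_wild`      : from finiteness + discreteness of the sheets of `F`;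
* `sheetsConclusion_wild_ctx`  : in the context `SSCtx` (any auxiliary `m`) with leaf BASE;
* `sheetsW`                    : for `H912.IsKummerCover L w x p (SplitAtLam (ζ - 1) p)`
                                  (the output of `H912.coverWild`).

Core: `Ribet/H883/SplitW.lean` (`KummerSplitW`).
-/

set_option autoImplicit false
set_option linter.style.haveILetI false
set_option linter.unusedSectionVars false

namespace Fermat.Agent.Ribet.H883

open Polynomial
open Fermat.Agent.A2
open Fermat.Agent.A2.H12 (IsSheet SSCtx BaseConclusion SheetsConclusion)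
open Fermat.Agent.A2.H373

section Unif

variable {F : Type*} [Field F]

/-- a discrete valuation subring in the sense of `BaseConclusion.discrete` is `IsUnif` -/
theorem isUnif_of_disc {V : ValuationSubring F} {w : F} (hw : w ∈ V.nonunits) (hw0 : w ≠ 0)
    (hdisc : ∀ f : F, f ≠ 0 → ∃ (n : ℤ) (u : F), u ∈ V ∧ u⁻¹ ∈ V ∧ f = w ^ n * u) :
    IsUnif V w := by
  refine ⟨ValuationSubring.nonunits_subset hw, ?_, ?_⟩
  · rw [ValuationSubring.mem_nonunits_iff_or] at hw
    rcases hw with h | h
    · exact absurd h hw0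
    · exact h
  · intro f hf
    obtain ⟨n, u, hu, hu', hfu⟩ := hdisc f hf
    have e : f * w ^ (-n) = u := by
      rw [hfu, mul_comm (w ^ n), mul_assoc, ← zpow_add₀ hw0, add_neg_cancel, zpow_zero, mul_one]
    refine ⟨n, ?_, ?_⟩
    · rw [e]; exact hu
    · rw [e]; exact hu'

end Unif

section Data

variable {R F L : Type} [CommRing R] [Field F] [Algebra R F]
  [Field L] [Algebra F L] [Algebra R L] [IsScalarTower R F L]

/-- **Bridge to the wild COVER-SPLIT**: `KummerSplitW` at a discrete sheet at which the Kummer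
generators split wildly. -/
theorem kummerSplitW_of_sheet {w : R} {x : F} {p : ℕ} (hp : p.Prime)
    {ζ : R} (hζ : IsPrimitiveRoot (algebraMap R F ζ) p)
    {V : ValuationSubring F} (hV : IsSheet w x V)
    (hdisc : ∀ f : F, f ≠ 0 →
      ∃ (n : ℤ) (u : F), u ∈ V ∧ u⁻¹ ∈ V ∧ f = algebraMap R F w ^ n * u)
    (hw0 : algebraMap R F w ≠ 0)
    {n : ℕ} {y : Fin n → L} {g c : Fin n → F} (hg0 : ∀ i, g i ≠ 0)
    (hy : ∀ i, y i ^ p = algebraMap F L (g i))
    (hgen : Algebra.adjoin F (Set.range y) = ⊤)
    (hc : ∀ i, c i ≠ 0 ∧ c i ∈ V ∧ (c i)⁻¹ ∈ V ∧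
      ∃ z ∈ V.nonunits, g i - c i ^ p = algebraMap R F (ζ - 1) ^ p * z) :
    KummerSplitW V (algebraMap R F w) p (algebraMap R F ζ) y g c := by
  have hlamV : algebraMap R F (ζ - 1) ∈ V := hV.1 _
  have hlam : algebraMap R F (ζ - 1) = algebraMap R F ζ - 1 := by rw [map_sub, map_one]
  have hlam0 : algebraMap R F ζ - 1 ≠ 0 := sub_ne_zero.2 (hζ.ne_one hp.one_lt)
  have hvc : ∀ i, V.valuation (c i) = 1 := by
    intro i
    have h1 : V.valuation (c i) ≤ 1 := (ValuationSubring.valuation_le_one_iff _ _).2 (hc i).2.1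
    have h2 : V.valuation (c i)⁻¹ ≤ 1 :=
      (ValuationSubring.valuation_le_one_iff _ _).2 (hc i).2.2.1
    rw [map_inv₀] at h2
    have hpos : 0 < V.valuation (c i) := zero_lt_iff.2 ((Valuation.ne_zero_iff _).2 (hc i).1)
    exact le_antisymm h1 ((inv_le_one₀ hpos).1 h2)
  have hcong : ∀ i, V.valuation (g i - c i ^ p) < V.valuation ((algebraMap R F ζ - 1) ^ p) := by
    intro i
    obtain ⟨z, hz, hgz⟩ := (hc i).2.2.2
    rw [ValuationSubring.mem_nonunits_iff] at hz
    rw [hgz, hlam, map_mul]
    have hpos : 0 < V.valuation ((algebraMap R F ζ - 1) ^ p) :=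
      zero_lt_iff.2 ((Valuation.ne_zero_iff _).2 (pow_ne_zero _ hlam0))
    calc V.valuation ((algebraMap R F ζ - 1) ^ p) * V.valuation z
        < V.valuation ((algebraMap R F ζ - 1) ^ p) * 1 := mul_lt_mul_of_pos_left hz hpos
      _ = _ := mul_one _
  have hcong1 : ∀ i, V.valuation (g i - c i ^ p) < 1 := by
    intro i
    refine (hcong i).trans_le ?_
    rw [← hlam]
    exact (ValuationSubring.valuation_le_one_iff _ _).2 (V.pow_mem hlamV p)
  have hvg : ∀ i, V.valuation (g i) = 1 := by
    intro i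
    have e : g i = c i ^ p + (g i - c i ^ p) := by ring
    have h1 : V.valuation (c i ^ p) = 1 := by rw [map_pow, hvc i, one_pow]
    rw [e, Valuation.map_add_eq_of_lt_left, h1]
    rw [h1]
    exact hcong1 i
  exact
    { unif := isUnif_of_disc hV.2.2.1 hw0 hdisc
      prime := hp
      prim := hζ
      pow := hy
      g_ne := hg0
      g_mem := fun i => by rw [← ValuationSubring.valuation_le_one_iff, hvg i]
      g_inv := fun i => by rw [← ValuationSubring.valuation_le_one_iff, map_inv₀, hvg i, inv_one]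
      c_mem := fun i => (hc i).2.1
      cong := hcong
      gen := hgen }

/-- **SHEETS-W** with explicit Kummer data, from finiteness and discreteness of the sheets of
the base field. -/
theorem sheetsConclusion_wild {w : R} {x : F}
    (hfinB : {V : ValuationSubring F | IsSheet w x V}.Finite)
    (hdisc : ∀ V : ValuationSubring F, IsSheet w x V → ∀ f : F, f ≠ 0 →
      ∃ (n : ℤ) (u : F), u ∈ V ∧ u⁻¹ ∈ V ∧ f = algebraMap R F w ^ n * u)
    (hw0 : algebraMap R F w ≠ 0)
    {p : ℕ} (hp : p.Prime) {ζ : R} (hζ : IsPrimitiveRoot (algebraMap R F ζ) p)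
    [FiniteDimensional F L] [IsGalois F L]
    {n : ℕ} (y : Fin n → L) (g : Fin n → F) (hg0 : ∀ i, g i ≠ 0)
    (hy : ∀ i, y i ^ p = algebraMap F L (g i))
    (hgen : IntermediateField.adjoin F (Set.range y) = ⊤)
    (hsplit : ∀ i, ∀ V : ValuationSubring F, IsSheet w x V →
      H912.SplitAtLam (algebraMap R F (ζ - 1)) p V (g i)) :
    SheetsConclusion L w x := by
  classical
  have hφw0 : algebraMap F L (algebraMap R F w) ≠ 0 := by
    intro h
    exact hw0 ((map_eq_zero_iff _ (algebraMap F L).injective).1 h)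
  have hRL : algebraMap R L w = algebraMap F L (algebraMap R F w) :=
    IsScalarTower.algebraMap_apply R F L w
  have hgen' : Algebra.adjoin F (Set.range y) = ⊤ := by
    have h1 := IntermediateField.adjoin_toSubalgebra (F := F) (E := L) (Set.range y)
    rw [hgen] at h1
    rw [← h1]
    rfl
  -- the residual roots
  have hex : ∀ V : ValuationSubring F, ∃ c : Fin n → F, IsSheet w x V →
      ∀ i, c i ≠ 0 ∧ c i ∈ V ∧ (c i)⁻¹ ∈ V ∧
        ∃ z ∈ V.nonunits, g i - c i ^ p = algebraMap R F (ζ - 1) ^ p * z := by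
    intro V
    by_cases hV : IsSheet w x V
    · choose u z hu0 hu hu' hz hg using fun i => hsplit i V hV
      exact ⟨u, fun _ i => ⟨hu0 i, hu i, hu' i, z i, hz i, hg i⟩⟩
    · exact ⟨fun _ => 0, fun h => absurd h hV⟩
  choose c hc using hex
  have D : ∀ V : ValuationSubring F, IsSheet w x V →
      KummerSplitW V (algebraMap R F w) p (algebraMap R F ζ) y g (c V) :=
    fun V hV => kummerSplitW_of_sheet hp hζ hV (hdisc V hV) hw0 hg0 hy hgen' (hc V hV)
  have hover : ∀ W : ValuationSubring L, Over (W.comap (algebraMap F L)) W :=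
    fun W a => Iff.rfl
  refine ⟨?_, ?_, ?_, ?_, ?_, ?_⟩
  · -- finite
    refine (Set.Finite.biUnion hfinB (fun V hV => (D V hV).finite (L := L))).subset ?_
    intro W hW
    rw [Set.mem_iUnion₂]
    exact ⟨W.comap (algebraMap F L), H12.IsSheet.comap_algebraMap hW, hover W⟩
  · -- exists_over
    intro V hV
    exact exists_sheet_over hV
  · -- unif
    intro W hW a ha
    have hV := H12.IsSheet.comap_algebraMap hW
    rw [ValuationSubring.mem_nonunits_iff] at ha
    refine ⟨a * (algebraMap F L (algebraMap R F w))⁻¹, (D _ hV).unramified (hover W) ha, ?_⟩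
    rw [hRL]
    field_simp
  · -- resdeg
    intro W hW b hb
    have hV := H12.IsSheet.comap_algebraMap hW
    obtain ⟨a, -, ha⟩ := (D _ hV).residue (hover W) hb
    exact ⟨a, (ValuationSubring.mem_nonunits_iff _).2 ha⟩
  · -- trans
    intro W W' hW hW' hcomap
    have hV := H12.IsSheet.comap_algebraMap hW
    have hoverW' : Over (W.comap (algebraMap F L)) W' := by
      rw [hcomap]
      exact hover W'
    exact (D _ hV).trans_mem (hover W) hoverW'
  · -- free
    intro W hW σ hσ
    have hV := H12.IsSheet.comap_algebraMap hW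
    exact (D _ hV).free_mem (hover W) σ hσ

end Data

section Ctx

variable {R E F : Type} [CommRing R] [IsDomain R] [IsDiscreteValuationRing R]
    [HenselianLocalRing R] [IsAlgClosed (IsLocalRing.ResidueField R)]
    [Field E] [CharZero E] [Algebra R E] [IsFractionRing R E]
    [Field F] [Algebra E F] [Algebra R F] [IsScalarTower R E F]
    {w : R} {q m : ℕ} {x : F} {Bf Bi : Subalgebra R F}
    {τ : F ≃+* F} {τE : E ≃+* E} {τR : R ≃+* R}

/-- **SHEETS-W** in the context `SSCtx` (with ANY auxiliary exponent `m`, e.g. `m = 1`), from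
leaf BASE. -/
theorem sheetsConclusion_wild_ctx (ctx : SSCtx w q m x Bf Bi τ τE τR)
    (hbase : BaseConclusion w x τ)
    {p : ℕ} (hp : p.Prime) {ζ : R} (hζ : IsPrimitiveRoot ζ p)
    (L : Type) [Field L] [Algebra F L] [Algebra R L] [IsScalarTower R F L]
    [FiniteDimensional F L] [IsGalois F L]
    {n : ℕ} (y : Fin n → L) (g : Fin n → F) (hg0 : ∀ i, g i ≠ 0)
    (hy : ∀ i, y i ^ p = algebraMap F L (g i))
    (hgen : IntermediateField.adjoin F (Set.range y) = ⊤)
    (hsplit : ∀ i, ∀ V : ValuationSubring F, IsSheet w x V →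
      H912.SplitAtLam (algebraMap R F (ζ - 1)) p V (g i)) :
    SheetsConclusion L w x :=
  sheetsConclusion_wild (base_sheets_finite ctx hbase) hbase.discrete (algebraMap_w_ne_zero ctx)
    hp (hζ.map_of_injective (algebraMap_RF_injective E)) y g hg0 hy hgen hsplit

/-- **Leaf SHEETS-W** for the wild Kummer cover of `H912.coverWild`. -/
theorem sheetsW (ctx : SSCtx w q m x Bf Bi τ τE τR) (hbase : BaseConclusion w x τ)
    {p : ℕ} (hp : p.Prime) {ζ : R} (hζ : IsPrimitiveRoot ζ p)
    (L : Type) [Field L] [Algebra F L] [Algebra R L] [IsScalarTower R F L]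
    (hK : H912.IsKummerCover (R := R) L w x p (H912.SplitAtLam (algebraMap R F (ζ - 1)) p)) :
    SheetsConclusion L w x := by
  obtain ⟨n, y, g, hg0, hy, hgen, -, hsplit⟩ := hK.gen
  haveI := hK.finite
  haveI := hK.galois
  exact sheetsConclusion_wild_ctx ctx hbase hp hζ L y g hg0 hy hgen hsplit

end Ctx

end Fermat.Agent.Ribet.H883
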