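import Fermat.Agent.Ribet.H883.WildHub
import Fermat.Agent.Ribet.H883.SheetsW
import Fermat.Agent.Ribet.H495.AlgPSpec
import Fermat.Agent.A2.H643.BaseLeaf
import Fermat.Agent.A2.H652.RedLeaf
import Fermat.Agent.A2.H552.ConstLeaf
import Fermat.Agent.A2.H912.CoverLeafU
import Fermat.Agent.A2.H12.AlgSSU
import Fermat.Agent.A2.H733.CountChart

/-!
# RIBET / S2 / W-ALGP: the route G-p ASSEMBLY   (helper883)

`W-ALGP` (`τ u = h ^ p * u ^ c` for the deeply split Kummer classes of order `p`, `τ ζ = ζ ^ c`)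
by the WILD route G, from ONE open leaf, **COUNT-W** (`CountWFor`, owner helper733 by
discriminants / helper12 by wild purity):

* COVER-W   : `H912.coverWild`                                   (on main);
* SHEETS-W  : `H883.sheetsW`                                     (on main);
* RED-W     : `A2.H652.redConclusion_of_baseRed` (exponent-free) (on main);
* CONST-W   : `A2.H552.constConclusion_of_sheet` (exponent-free) (on main);
* BASE      : `A2.H643.baseLeaf` for the context `SSCtx w p 1 …` (auxiliary exponent `1`);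
* hub       : `H883.algG_core_wild`.

Results:
* `algP_routeG_split` : for `u` wildly split at every sheet (`H912.SplitAtLam (ζ - 1) p`);
* `splitAtLam_of_deepOne` : `H495.AlgP.DeepOne` on the finite chart gives the wild splitting;
* `algP_routeG` : the conclusion `H495.AlgP.AlgPConclusion` (frozen by helper495), in the setting
  of `A2.AlgSSStatement` with `q = p` (i.e. WITH separating coordinates, `τ x = x` and `τ` of
  finite order — the hypotheses route G needs and `AlgPStatement` omits).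
-/

set_option autoImplicit false
set_option linter.style.haveILetI false
set_option linter.unusedSectionVars false

namespace Fermat.Agent.Ribet.H883

open Polynomial
open Fermat.Agent.A2 Fermat.Agent.A2.H12 Fermat.Agent.A2.Alg

/-- **Leaf COUNT-W**, in the shape consumed by the route G-p assembly. -/
def CountWFor {R F : Type} [CommRing R] [Field F] [Algebra R F] (w : R) (x : F) (p : ℕ)
    (lam : F) : Prop :=
  ∀ (L : Type) [Field L] [Algebra F L] [Algebra R L] [IsScalarTower R F L],
    H912.IsKummerCover (R := R) L w x p (H912.SplitAtLam lam p) →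
    SheetsConclusion L w x → RedConclusion L w x → CountConclusion L w x

section Aux

variable {R : Type*} [CommRing R]

/-- a ring automorphism with `τ ζ = ζ ^ c` multiplies `ζ - 1` by an element of `R`, and so do its
powers -/
theorem exists_mul_sub_one_of_pow (τR : R ≃+* R) {ζ : R} {c : ℕ} (hc : τR ζ = ζ ^ c) (i : ℕ) :
    ∃ ε : R, (τR ^ i) (ζ - 1) = ε * (ζ - 1) := by
  have key : ∃ k : ℕ, (τR ^ i) ζ = ζ ^ k := by
    induction i with
    | zero => exact ⟨1, by simp⟩
    | succ i ih =>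
      obtain ⟨k, hk⟩ := ih
      refine ⟨c * k, ?_⟩
      rw [pow_succ', RingAut.mul_apply, hk, map_pow, hc, ← pow_mul]
  obtain ⟨k, hk⟩ := key
  refine ⟨∑ j ∈ Finset.range k, ζ ^ j, ?_⟩
  rw [map_sub, map_one, hk, mul_comm, mul_geom_sum]

end Aux

section Main

variable {R E F : Type} [CommRing R] [IsDomain R] [IsDiscreteValuationRing R]
    [HenselianLocalRing R] [IsAlgClosed (IsLocalRing.ResidueField R)]
    [Field E] [CharZero E] [Algebra R E] [IsFractionRing R E]
    [Field F] [Algebra E F] [Algebra R F] [IsScalarTower R E F]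
    {w : R} {p : ℕ} {x : F} {Bf Bi : Subalgebra R F}
    {τ : F ≃+* F} {τE : E ≃+* E} {τR : R ≃+* R}

/-- **W-ALGP by route G-p, split form.** -/
theorem algP_routeG_split (ctx : SSCtx w p 1 x Bf Bi τ τE τR)
    {ζ : R} (hζ : IsPrimitiveRoot ζ p) {c : ℕ} (hc : τR ζ = ζ ^ c)
    (hCount : CountWFor w x p (algebraMap R F (ζ - 1)))
    (u : F) (hu : u ≠ 0) (hdiv : DivisibleDiv E p u)
    (hsplit : ∀ V : ValuationSubring F, IsSheet w x V →
      H912.SplitAtLam (algebraMap R F (ζ - 1)) p V u) :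
    ∃ h : F, h ≠ 0 ∧ τ u = h ^ p * u ^ c := by
  have hp : p.Prime := ctx.qprime
  have B := Fermat.Agent.A2.H643.baseLeaf w p 1 x Bf Bi τ τE τR ctx
  have hinjRE : Function.Injective (algebraMap R E) := IsFractionRing.injective R E
  have hinj : Function.Injective (algebraMap R F) := by
    rw [IsScalarTower.algebraMap_eq R E F]
    exact (algebraMap E F).injective.comp hinjRE
  have : CharZero F := charZero_of_injective_algebraMap (algebraMap E F).injective
  have hxR : Transcendental R x := ctx.transc.restrictScalars hinjRE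
  have hw : Prime w := ctx.irr.prime
  have hτRF : ∀ r, τ (algebraMap R F r) = algebraMap R F (τR r) := by
    intro r
    rw [IsScalarTower.algebraMap_apply R E F, ctx.hτE, ctx.hτR,
      ← IsScalarTower.algebraMap_apply]
  have hdvd : ∀ r : R, w ∣ r ↔ ¬ IsUnit r := by
    intro r
    rw [← Ideal.mem_span_singleton, ← ctx.irr.maximalIdeal_eq, IsLocalRing.mem_maximalIdeal,
      mem_nonunits_iff]
  have hτw : ∀ r, w ∣ r ↔ w ∣ τR r := by
    intro r
    rw [hdvd, hdvd]
    exact not_congr (MulEquiv.isUnit_map (τR : R ≃* R)).symm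
  have hW0 : algebraMap R F w ≠ 0 := by
    intro h0
    exact ctx.irr.ne_zero (hinj (by rw [h0, map_zero]))
  have hHor : HorDiv R p u := horDiv_of_divisibleDiv hdiv
  obtain ⟨r, hr, hfo⟩ := ctx.hfo
  -- the cover
  obtain ⟨L, _, _, _, _, hKS, τ₀, y, hτ₀, hy⟩ :=
    H912.coverWild w x p τ τR hinj hp.pos ⟨ζ, hζ⟩ ctx.hτx hτRF hτw hr
      (Fermat.Agent.A2.H912.ringAut_pow_eq_one_of_iterate τ hfo) (ζ - 1)
      (exists_mul_sub_one_of_pow τR hc) u hu hHor hsplit
  haveI := hKS.finite
  haveI := hKS.galois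
  -- the leaves
  have S1 : SheetsConclusion L w x := sheetsW ctx B hp hζ L hKS
  obtain ⟨cf⟩ := ctx.cf
  obtain ⟨ci⟩ := ctx.ci
  have hRed : RedConclusion L w x :=
    Fermat.Agent.A2.H652.redConclusion_of_baseRed w x hW0 S1
      (Fermat.Agent.A2.H652.baseRed_of_ssChart w hw hxR Bf Bi ctx.hBf ctx.hBi cf ci)
  obtain ⟨V₀, hV₀⟩ := B.exists_sheet
  obtain ⟨W₀, hW₀, -⟩ := S1.exists_over V₀ hV₀
  have hConst : ConstConclusion (R := R) L x :=
    Fermat.Agent.A2.H552.constConclusion_of_sheet (E := E) w ctx.irr x ctx.fin L W₀ hW₀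
      (S1.unif W₀ hW₀)
  have hCnt : CountConclusion L w x := hCount L hKS S1 hRed
  -- the lift fixing the sheet `W₀`
  have hW₁ : IsSheet w (algebraMap F L x) (W₀.comap (τ₀.symm : L →+* L)) :=
    lift_isSheet w x τ τR ctx.hτx hτRF hτw τ₀ hτ₀ hW₀
  have hcol : (W₀.comap (τ₀.symm : L →+* L)).comap (algebraMap F L) =
      W₀.comap (algebraMap F L) := by
    ext f
    have h2 := (B.stable _ (IsSheet.comap_algebraMap hW₀) (τ.symm f)).1
    rw [RingEquiv.apply_symm_apply] at h2
    rw [ValuationSubring.mem_comap, ValuationSubring.mem_comap]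
    change τ₀.symm (algebraMap F L f) ∈ W₀ ↔ _
    rw [lift_symm_algebraMap τ τ₀ hτ₀, ← ValuationSubring.mem_comap, h2]
  obtain ⟨σ, hσ⟩ := S1.trans _ W₀ hW₁ hW₀ hcol
  obtain ⟨z, hz⟩ := algG_core_wild (L := L) w x p τ τR hinj hxR hw hp.pos c ⟨ζ, hζ, hc⟩
    ctx.hτx hτRF hτw B.stable S1 hRed hConst hCnt (τ₀.trans (σ : L ≃+* L))
    (fun f => by
      change σ (τ₀ (algebraMap F L f)) = _
      rw [hτ₀, σ.commutes])
    W₀ hW₀
    (fun b => by
      change b ∈ W₀ ↔ σ (τ₀ b) ∈ W₀
      rw [← hσ, ValuationSubring.mem_comap]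
      change _ ↔ τ₀.symm (τ₀ b) ∈ W₀
      rw [RingEquiv.symm_apply_apply])
    u hu y hy
  refine ⟨z, ?_, hz⟩
  rintro rfl
  rw [zero_pow hp.ne_zero, zero_mul] at hz
  exact hu ((map_eq_zero_iff τ τ.injective).1 hz)

/-- `DeepOne` on the finite chart gives the wild splitting at every sheet. -/
theorem splitAtLam_of_deepOne (ctx : SSCtx w p 1 x Bf Bi τ τE τR) (cf : SSChart w Bf)
    (lam : R) {u : F} (hdeep : H495.AlgP.DeepOne Bf cf p lam u)
    (V : ValuationSubring F) (hV : IsSheet w x V) :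
    H912.SplitAtLam (algebraMap R F lam) p V u := by
  have B := Fermat.Agent.A2.H643.baseLeaf w p 1 x Bf Bi τ τE τR ctx
  haveI := ctx.fin
  obtain ⟨V₁, V₂, -, -, hV₁, hV₂, hcls, -, -⟩ :=
    Fermat.Agent.A2.H733.exists_base_sheets (E := E) w ctx.irr x ctx.transc Bf ctx.hBf cf
      B.discrete
  have key : ∀ (q : Ideal Bf), (∀ b : Bf, (b : F) ∈ V.nonunits ↔ b ∈ q) →
      H495.AlgP.LocOneR Bf q (lam ^ p * w) u → H912.SplitAtLam (algebraMap R F lam) p V u := by
    rintro q hq ⟨a, b, hb, hab, hub⟩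
    obtain ⟨t, ht⟩ := Ideal.mem_span_singleton.1 hab
    have hbV : (b : F) ∈ V := Fermat.Agent.A2.H373.sheet_mem_of_mem ctx.hBf hV _ b.2
    have htV : (t : F) ∈ V := Fermat.Agent.A2.H373.sheet_mem_of_mem ctx.hBf hV _ t.2
    have hbnu : (b : F) ∉ V.nonunits := fun h => hb ((hq b).1 h)
    have hbinv : (b : F)⁻¹ ∈ V := Fermat.Agent.A2.H373.inv_mem_of_not_nonunit V hbnu
    have hb0 : (b : F) ≠ 0 := Fermat.Agent.A2.H373.ne_zero_of_not_nonunit V hbnu
    have htF : (a : F) - (b : F) = algebraMap R F lam ^ p * algebraMap R F w * (t : F) := by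
      have := congrArg (fun z : Bf => (z : F)) ht
      simp only [Subalgebra.coe_sub, Subalgebra.coe_mul, Subalgebra.coe_algebraMap, map_mul,
        map_pow] at this
      exact this
    refine ⟨1, algebraMap R F w * (t : F) * (b : F)⁻¹, one_ne_zero, V.one_mem, ?_, ?_, ?_⟩
    · rw [inv_one]; exact V.one_mem
    · have h1 : algebraMap R F w * (t : F) * (b : F)⁻¹ =
          ((t : F) * (b : F)⁻¹) * algebraMap R F w := by ring
      rw [h1]
      exact mul_mem_nonunits V hV.2.2.1 (V.mul_mem _ _ htV hbinv)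
    · have hu' : u = (a : F) * (b : F)⁻¹ := by
        rw [← hub, mul_assoc, mul_inv_cancel₀ hb0, mul_one]
      rw [one_pow, hu']
      have : (a : F) * (b : F)⁻¹ - 1 = ((a : F) - (b : F)) * (b : F)⁻¹ := by
        field_simp
      rw [this, htF]
      ring
  rcases hcls V hV with rfl | rfl
  · exact key cf.p₁ hV₁ hdeep.1
  · exact key cf.p₂ hV₂ hdeep.2

/-- **W-ALGP by route G-p**: the conclusion frozen in `Ribet/H495/AlgPSpec.lean`, in the context
`SSCtx w p 1 …` (= the setting of `A2.AlgSSStatement` with `q = p`, auxiliary exponent `1`), from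
the leaf COUNT-W. -/
theorem algP_routeG (ctx : SSCtx w p 1 x Bf Bi τ τE τR) (cf : SSChart w Bf) (ci : SSChart w Bi)
    {ζ : R} (hζ : IsPrimitiveRoot ζ p) {c : ℕ} (hc : τR ζ = ζ ^ c)
    (hCount : CountWFor w x p (algebraMap R F (ζ - 1))) :
    H495.AlgP.AlgPConclusion E Bf Bi cf ci p (ζ - 1) c τ := by
  intro u hu hdiv hdf _
  exact algP_routeG_split ctx hζ hc hCount u hu hdiv
    (fun V hV => splitAtLam_of_deepOne ctx cf (ζ - 1) hdf V hV)

end Main

end Fermat.Agent.Ribet.H883
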