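/-
RIBET row, piece R3 (helper883): bridge between the two languages for characters of `Γ₀(N)`:
* `S29.DefsM`: functions `c : G0 N → A` with `IsParHom c`, Hecke operator `heckeCoh N ℓ`;
* `S29.H642`: additive homs `φ : Additive (Gamma0 N) →+ A`, Hecke operator `heckeTransfer`.
-/
import Fermat.Agent.S29.M4a.Fac
import Fermat.Agent.S29.H642.HeckeTransfer
import Fermat.Agent.S29.H149.HCoh

set_option autoImplicit false

noncomputable section

namespace Fermat.Agent.Ribet.H883

open CongruenceSubgroup Matrix.SpecialLinearGroup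
open Fermat.Agent.S29
open scoped MatrixGroups

variable {N : ℕ} {A : Type*} [AddCommGroup A]

/-- The function `Γ₀(N) → A` underlying an additive hom. -/
def funOf (φ : Additive (Gamma0 N) →+ A) : G0 N → A := fun γ => φ (Additive.ofMul γ)

@[simp] theorem funOf_apply (φ : Additive (Gamma0 N) →+ A) (γ : G0 N) :
    funOf φ γ = φ (Additive.ofMul γ) := rfl

/-- The additive hom attached to a multiplicative-to-additive function. -/
def homOf (c : G0 N → A) (hc : ∀ γ γ' : G0 N, c (γ * γ') = c γ + c γ') :
    Additive (Gamma0 N) →+ A where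
  toFun γ := c (Additive.toMul γ)
  map_zero' := by
    have h := hc 1 1
    rw [mul_one] at h
    exact left_eq_add.mp h
  map_add' γ δ := hc (Additive.toMul γ) (Additive.toMul δ)

@[simp] theorem homOf_apply (c : G0 N → A) (hc : ∀ γ γ' : G0 N, c (γ * γ') = c γ + c γ')
    (γ : G0 N) : homOf c hc (Additive.ofMul γ) = c γ := rfl

@[simp] theorem funOf_homOf (c : G0 N → A) (hc : ∀ γ γ' : G0 N, c (γ * γ') = c γ + c γ') :
    funOf (homOf c hc) = c := rfl

theorem funOf_injective : Function.Injective (funOf : (Additive (Gamma0 N) →+ A) → G0 N → A) := by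
  intro φ ψ h
  refine AddMonoidHom.ext fun γ => ?_
  exact congrFun h (Additive.toMul γ)

theorem funOf_map_mul (φ : Additive (Gamma0 N) →+ A) (γ γ' : G0 N) :
    funOf φ (γ * γ') = funOf φ γ + funOf φ γ' := by
  simp only [funOf_apply, ofMul_mul, map_add]

section Hecke

variable {ℓ : ℕ} [Fact ℓ.Prime]

/-- The two transfer elements (helper201's `trf`, helper642's `hElt`) agree. -/
theorem hElt_eq_trf (hℓN : ¬ ℓ ∣ N) (γ : Gamma0 N) (x : OnePoint (ZMod ℓ)) :
    H642.hElt hℓN γ x = H201.trf hℓN γ x :=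
  H201.trf_unique hℓN γ _ x (H642.hElt_spec hℓN γ x)

/-- **Bridge.** The Hecke transfer of `S29.H642` is the cohomological Hecke operator of
`S29.DefsM`. -/
theorem funOf_heckeTransfer (hℓN : ¬ ℓ ∣ N) (φ : Additive (Gamma0 N) →+ A) :
    funOf (H642.heckeTransfer hℓN φ) = heckeCoh N ℓ (funOf φ) := by
  funext γ
  rw [funOf_apply, H642.heckeTransfer_apply, M4aTop_heckeCoh_eq_sum_trf hℓN]
  refine Finset.sum_congr rfl fun x _ => ?_
  rw [hElt_eq_trf]
  rfl

end Hecke

end Fermat.Agent.Ribet.H883
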