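/-
RIBET row, piece R3 (helper883): the involution `ι` (conjugation by `diag(1,-1)`, Prelude
`charInvolution`) commutes with the Hecke transfer on parabolic characters.
-/
import Fermat.Agent.Ribet.H883.Bridge
import Fermat.Prelude.Def_ModularCurve_PeriodHomPair

set_option autoImplicit false

noncomputable section

namespace Fermat.Agent.Ribet.H883

open CongruenceSubgroup Matrix.SpecialLinearGroup ModularCurve ModularCurve.Period
open Fermat.Agent.S29
open scoped MatrixGroups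

variable {N : ℕ} {A : Type*} [AddCommGroup A]

/-- The upper unipotent element `[[1, e], [0, 1]]` of `Γ₀(N)`. -/
def uElt (N : ℕ) (e : ℤ) : G0 N :=
  H149.HCoh_mk !![1, e; 0, 1] (by simp [Matrix.det_fin_two_of]) (by simp)

theorem uElt_mat (e : ℤ) : (uElt N e).mat = !![1, e; 0, 1] := rfl

theorem jConj_mat (γ : G0 N) : G0.mat (jConjGamma0 N γ) = jConjMat γ.mat := rfl

section idx

variable (ℓ : ℕ)

/-- The involution `b ↦ -b` on the index set of the Hecke representatives. -/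
def negIdx : Option (Fin ℓ) ≃ Option (Fin ℓ) := Equiv.optionCongr (Equiv.neg (Fin ℓ))

@[simp] theorem negIdx_none : negIdx ℓ none = none := rfl

@[simp] theorem negIdx_some (b : Fin ℓ) : negIdx ℓ (some b) = some (-b) := rfl

/-- The correction exponent: `0` for `∞` and `b = 0`, `1` otherwise. -/
def epsIdx : Option (Fin ℓ) → ℤ
  | none => 0
  | some b => if (b : ℕ) = 0 then 0 else 1

theorem uElt_mul_jConjMat_heckeRep (i : Option (Fin ℓ)) :
    (uElt N (epsIdx ℓ i)).mat * jConjMat (heckeRep ℓ i) = heckeRep ℓ (negIdx ℓ i) := by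
  rcases i with _ | b
  · rw [uElt_mat]
    ext r s
    fin_cases r <;> fin_cases s <;>
      simp [epsIdx, heckeRep, jConjMat, Matrix.mul_apply, Fin.sum_univ_two]
  · have hb : (((-b : Fin ℓ) : ℕ) : ℤ) = epsIdx ℓ (some b) * ℓ - (b : ℕ) := by
      rw [Fin.val_neg']
      by_cases h0 : (b : ℕ) = 0
      · simp [epsIdx, h0]
      · have hlt : (b : ℕ) < ℓ := b.2
        have hpos : 0 < (b : ℕ) := Nat.pos_of_ne_zero h0
        have h1 : (ℓ - (b : ℕ)) % ℓ = ℓ - (b : ℕ) := Nat.mod_eq_of_lt (by omega)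
        rw [h1]
        simp only [epsIdx, h0, if_false, one_mul]
        omega
    rw [uElt_mat]
    ext r s
    fin_cases r <;> fin_cases s
    · simp [heckeRep, jConjMat, Matrix.mul_apply, Fin.sum_univ_two]
    · simp only [heckeRep, jConjMat, Matrix.mul_apply, Fin.sum_univ_two, negIdx_some,
        Fin.zero_eta, Fin.isValue, Fin.mk_one, Matrix.of_apply, Matrix.cons_val', Matrix.cons_val_zero,
        Matrix.cons_val_fin_one, Matrix.cons_val_one]
      rw [hb]
      ring
    · simp [heckeRep, jConjMat, Matrix.mul_apply, Fin.sum_univ_two]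
    · simp [heckeRep, jConjMat, Matrix.mul_apply, Fin.sum_univ_two]

end idx

section main

variable {ℓ : ℕ}

/-- Behaviour of the Hecke factorisation under the involution `jConj`. -/
theorem heckeFac_jConj (hℓ : ℓ.Prime) (hℓN : ¬ ℓ ∣ N) (γ : G0 N) (i : Option (Fin ℓ)) :
    heckeFac N ℓ (jConjGamma0 N γ) (negIdx ℓ i) =
      (negIdx ℓ (heckeFac N ℓ γ i).1,
        uElt N (epsIdx ℓ i) * jConjGamma0 N (heckeFac N ℓ γ i).2 *
          (uElt N (epsIdx ℓ (heckeFac N ℓ γ i).1))⁻¹) := by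
  apply H149.HCoh_heckeFac_unique hℓ hℓN
  have h := H149.HCoh_heckeFac_spec hℓ hℓN γ i
  unfold IsHeckeFactor at h ⊢
  set j := (heckeFac N ℓ γ i).1 with hj
  set γ' := (heckeFac N ℓ γ i).2 with hγ'
  have h2 : jConjMat (heckeRep ℓ i) * jConjMat γ.mat = jConjMat γ'.mat * jConjMat (heckeRep ℓ j) := by
    rw [← jConjMat_mul, ← jConjMat_mul, h]
  have hi := uElt_mul_jConjMat_heckeRep (N := N) ℓ i
  have hjj := uElt_mul_jConjMat_heckeRep (N := N) ℓ j
  have hu : (uElt N (epsIdx ℓ j))⁻¹.mat * (uElt N (epsIdx ℓ j)).mat = 1 := by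
    rw [← H149.HCoh_mat_mul, inv_mul_cancel]
    rfl
  show heckeRep ℓ (negIdx ℓ i) * G0.mat (jConjGamma0 N γ) =
    G0.mat (uElt N (epsIdx ℓ i) * jConjGamma0 N γ' * (uElt N (epsIdx ℓ j))⁻¹) *
      heckeRep ℓ (negIdx ℓ j)
  rw [H149.HCoh_mat_mul, H149.HCoh_mat_mul, jConj_mat, jConj_mat, ← hi, ← hjj]
  calc (uElt N (epsIdx ℓ i)).mat * jConjMat (heckeRep ℓ i) * jConjMat γ.mat
      = (uElt N (epsIdx ℓ i)).mat * (jConjMat (heckeRep ℓ i) * jConjMat γ.mat) := by
        rw [Matrix.mul_assoc]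
    _ = (uElt N (epsIdx ℓ i)).mat * (jConjMat γ'.mat * jConjMat (heckeRep ℓ j)) := by rw [h2]
    _ = (uElt N (epsIdx ℓ i)).mat * jConjMat γ'.mat *
          ((uElt N (epsIdx ℓ j))⁻¹.mat * (uElt N (epsIdx ℓ j)).mat) * jConjMat (heckeRep ℓ j) := by
        rw [hu, Matrix.mul_one, Matrix.mul_assoc]
    _ = _ := by simp only [Matrix.mul_assoc]

/-- **The involution commutes with the cohomological Hecke operator** on additive functions
killing the unipotent elements. -/
theorem heckeCoh_comp_jConj (hℓ : ℓ.Prime) (hℓN : ¬ ℓ ∣ N) {c : G0 N → A}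
    (hadd : ∀ γ γ' : G0 N, c (γ * γ') = c γ + c γ')
    (hpar : ∀ γ : G0 N, γ.mat.trace = 2 → c γ = 0) (γ : G0 N) :
    heckeCoh N ℓ (fun δ => c (jConjGamma0 N δ)) (jConjGamma0 N γ) = heckeCoh N ℓ c γ := by
  have hu : ∀ e : ℤ, c (uElt N e) = 0 := fun e => hpar _ (by
    rw [uElt_mat, Matrix.trace_fin_two_of]; norm_num)
  have hc1 : c 1 = 0 := by
    have h := hadd 1 1
    rw [mul_one] at h
    exact left_eq_add.mp h
  have hinv : ∀ δ : G0 N, c δ⁻¹ = - c δ := fun δ => by
    have h := hadd δ δ⁻¹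
    rw [mul_inv_cancel, hc1] at h
    exact eq_neg_of_add_eq_zero_right h.symm
  unfold heckeCoh
  rw [← Equiv.sum_comp (negIdx ℓ)]
  refine Finset.sum_congr rfl fun i _ => ?_
  rw [heckeFac_jConj hℓ hℓN γ i]
  show c (jConjGamma0 N (uElt N (epsIdx ℓ i) * jConjGamma0 N (heckeFac N ℓ γ i).2 *
    (uElt N (epsIdx ℓ (heckeFac N ℓ γ i).1))⁻¹)) = _
  rw [map_mul, map_mul, jConjGamma0_jConjGamma0, hadd, hadd]
  have h1 : c (jConjGamma0 N (uElt N (epsIdx ℓ i))) = 0 := hpar _ (by
    rw [jConj_mat, jConjMat_trace, uElt_mat, Matrix.trace_fin_two_of]; norm_num)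
  have h2 : c (jConjGamma0 N (uElt N (epsIdx ℓ (heckeFac N ℓ γ i).1))⁻¹) = 0 := by
    rw [map_inv, hinv]
    rw [hpar _ (by rw [jConj_mat, jConjMat_trace, uElt_mat, Matrix.trace_fin_two_of]; norm_num),
      neg_zero]
  rw [h1, h2, zero_add, add_zero]

end main

section transfer

variable {ℓ : ℕ} [Fact ℓ.Prime]

/-- **The involution `ι` commutes with the Hecke transfer** on parabolic characters. -/
theorem heckeTransfer_charInvolution (R : Type*) [Semiring R] [Module R A] (hℓN : ¬ ℓ ∣ N)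
    (φ : Additive (Gamma0 N) →+ A) (hφ : IsParabolicHom (Gamma0 N) φ) :
    H642.heckeTransfer hℓN (charInvolution N R A φ) =
      charInvolution N R A (H642.heckeTransfer hℓN φ) := by
  apply funOf_injective
  rw [funOf_heckeTransfer]
  funext γ
  have key := heckeCoh_comp_jConj (A := A) (Fact.out : ℓ.Prime) hℓN (c := funOf φ)
    (funOf_map_mul φ) (fun δ hδ => hφ δ (by
      have : ((δ : SL(2, ℤ)) : Matrix (Fin 2) (Fin 2) ℤ).trace = 2 := hδ
      rw [this]; norm_num)) (jConjGamma0 N γ)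
  rw [jConjGamma0_jConjGamma0] at key
  have e1 : funOf (charInvolution N R A φ) = fun δ => funOf φ (jConjGamma0 N δ) := rfl
  rw [e1, key]
  show heckeCoh N ℓ (funOf φ) (jConjGamma0 N γ) =
    (H642.heckeTransfer hℓN φ) (Additive.ofMul (jConjGamma0 N γ))
  rw [← funOf_apply, funOf_heckeTransfer]

end transfer

end Fermat.Agent.Ribet.H883
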