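/-
RIBET row, piece R3 (helper883), characteristic-0 step: a nonzero parabolic class
`φ ∈ Hom(Γ₀(M), ℂ)` which is an eigenvector of the Hecke transfers `T_l` (`l ∤ M`, `l ∉ S`) with
eigenvalues `b l` produces a normalized eigenform of level `M` with `a_l = b l`.
Inputs (all on main): S21 (Eichler–Shimura), `S29.H642.periodMap_heckeTLin`,
`Lib.Newform.H863.exists_normalizedEigenform_of_eigenvector`.
-/
import Fermat.Agent.Ribet.H883.Involution
import Fermat.Agent.S21.Glue
import Fermat.Agent.S29.H642.PeriodHecke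
import Fermat.Agent.Lib.Newform.H863.GoodEigen

set_option autoImplicit false

noncomputable section

namespace Fermat.Agent.Ribet.H883

open CongruenceSubgroup ModularCurve ModularCurve.Period ModularFormClass
open Fermat.Agent.S29
open scoped MatrixGroups

variable {M : ℕ}

theorem heckeTransfer_zero {l : ℕ} [Fact l.Prime] (hl : ¬ l ∣ M) :
    H642.heckeTransfer hl (0 : Additive (Gamma0 M) →+ ℂ) = 0 := by
  have h := H642.heckeTransfer_add hl (0 : Additive (Gamma0 M) →+ ℂ) 0
  rw [add_zero] at h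
  exact left_eq_add.mp h

theorem heckeTransfer_neg {l : ℕ} [Fact l.Prime] (hl : ¬ l ∣ M)
    (φ : Additive (Gamma0 M) →+ ℂ) :
    H642.heckeTransfer hl (-φ) = - H642.heckeTransfer hl φ := by
  have h := H642.heckeTransfer_add hl φ (-φ)
  rw [add_neg_cancel, heckeTransfer_zero] at h
  exact eq_neg_of_add_eq_zero_right h.symm

theorem heckeTransfer_sub {l : ℕ} [Fact l.Prime] (hl : ¬ l ∣ M)
    (φ ψ : Additive (Gamma0 M) →+ ℂ) :
    H642.heckeTransfer hl (φ - ψ) = H642.heckeTransfer hl φ - H642.heckeTransfer hl ψ := by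
  rw [sub_eq_add_neg, H642.heckeTransfer_add, heckeTransfer_neg, ← sub_eq_add_neg]

theorem heckeTransfer_smul {l : ℕ} [Fact l.Prime] (hl : ¬ l ∣ M) (c : ℂ)
    (φ : Additive (Gamma0 M) →+ ℂ) :
    H642.heckeTransfer hl (c • φ) = c • H642.heckeTransfer hl φ := by
  have h := H642.heckeTransfer_comp hl (AddMonoidHom.mulLeft c) φ
  have e1 : (AddMonoidHom.mulLeft c).comp φ = c • φ := by
    refine AddMonoidHom.ext fun γ => ?_
    simp
  have e2 : (AddMonoidHom.mulLeft c).comp (H642.heckeTransfer hl φ) =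
      c • H642.heckeTransfer hl φ := by
    refine AddMonoidHom.ext fun γ => ?_
    simp
  rw [e1, e2] at h
  exact h

variable [NeZero M]

/-- Hecke equivariance of the Eichler–Shimura map `periodHomPair`. -/
theorem heckeTransfer_periodHomPair {l : ℕ} [Fact l.Prime] (hlp : l.Prime) (hl : ¬ l ∣ M)
    (f₁ f₂ : CuspForm (Gamma0 M) 2) :
    H642.heckeTransfer hl (periodHomPair M (f₁, f₂)) =
      periodHomPair M (CuspForm.heckeTLin 2 hlp hl f₁, CuspForm.heckeTLin 2 hlp hl f₂) := by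
  have hp₁ : IsParabolicHom (Gamma0 M) (periodMap M f₁) :=
    Fermat.Agent.S21.H381.periodMap_mem_parabolicHoms f₁
  have hp₂ : IsParabolicHom (Gamma0 M) (periodMap M f₂) :=
    Fermat.Agent.S21.H381.periodMap_mem_parabolicHoms f₂
  rw [Fermat.Agent.S21.H381.periodHomPair_apply, Fermat.Agent.S21.H381.periodHomPair_apply,
    H642.heckeTransfer_add, H642.heckeTransfer_add, heckeTransfer_sub,
    heckeTransfer_charInvolution ℂ hl _ hp₁, heckeTransfer_charInvolution ℂ hl _ hp₂,
    H642.periodMap_heckeTLin hlp hl f₁, H642.periodMap_heckeTLin hlp hl f₂]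

/-- **Characteristic-0 step of R3.** -/
theorem exists_eigenform_of_parabolic_eigen (S : Set ℕ) (b : ℕ → ℂ)
    (φ : Additive (Gamma0 M) →+ ℂ) (hφ : φ ∈ parabolicHoms ℂ (Gamma0 M) ℂ) (hφ0 : φ ≠ 0)
    (hT : ∀ (l : ℕ) [Fact l.Prime] (hl : ¬ l ∣ M), l ∉ S → H642.heckeTransfer hl φ = b l • φ) :
    ∃ g : CuspForm (Gamma0 M) 2, g.IsNormalizedEigenform ∧
      ∀ l : ℕ, l.Prime → ¬ l ∣ M → l ∉ S → qCoeff g l = b l := by
  obtain ⟨hinj, hrange⟩ := Fermat.Agent.S21.main M
  have hφr : φ ∈ LinearMap.range (periodHomPair M) := by rw [hrange]; exact hφ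
  obtain ⟨⟨f₁, f₂⟩, hpair⟩ := hφr
  have eig : ∀ (l : ℕ) (hl : l.Prime) (hlM : ¬ l ∣ M), l ∉ S →
      CuspForm.heckeTLin 2 hl hlM f₁ = b l • f₁ ∧ CuspForm.heckeTLin 2 hl hlM f₂ = b l • f₂ := by
    intro l hl hlM hlS
    have : Fact l.Prime := ⟨hl⟩
    have hTl := hT l hlM hlS
    have e : periodHomPair M
        (CuspForm.heckeTLin 2 hl hlM f₁, CuspForm.heckeTLin 2 hl hlM f₂) =
        periodHomPair M (b l • (f₁, f₂)) := by
      rw [← heckeTransfer_periodHomPair hl hlM f₁ f₂, hpair, hTl, map_smul, hpair]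
    have := hinj e
    rw [Prod.smul_mk, Prod.mk.injEq] at this
    exact this
  have hne : f₁ ≠ 0 ∨ f₂ ≠ 0 := by
    by_contra hcon
    push Not at hcon
    apply hφ0
    rw [← hpair, hcon.1, hcon.2]
    exact map_zero _
  rcases hne with hf | hf
  · exact Fermat.Agent.Lib.Newform.H863.exists_normalizedEigenform_of_eigenvector S b f₁ hf
      (fun l hl hlM hlS => (eig l hl hlM hlS).1)
  · exact Fermat.Agent.Lib.Newform.H863.exists_normalizedEigenform_of_eigenvector S b f₂ hf
      (fun l hl hlM hlS => (eig l hl hlM hlS).2)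

end Fermat.Agent.Ribet.H883
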