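/-
RIBET row, piece R3 (helper883), lattice step: the lattice `K` of integral parabolic classes
inside `V = Hom(Γ₀(M), ℂ)` is finitely generated, stable under the Hecke transfers, and the Hecke
transfers commute on it.  Deligne–Serre lifting (landed `S41.H401.ds_general_mem`) then turns a
mod-`p` eigenclass of `K / pK` into a normalized eigenform of level `M`.
-/
import Fermat.Agent.Ribet.H883.Char0
import Fermat.Agent.S41.H401.DS
import Fermat.Prelude.Thm_CuspForm_heckeTLin_comm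

set_option autoImplicit false

noncomputable section

namespace Fermat.Agent.Ribet.H883

open CongruenceSubgroup ModularCurve ModularCurve.Period ModularFormClass
open Fermat.Agent.S29
open scoped MatrixGroups

/-! ### Finite generation -/

/-- `SL(2, ℤ)` is finitely generated. -/
theorem fg_SL2Z_h883 : Group.FG SL(2, ℤ) :=
  Group.fg_iff.mpr ⟨{ModularGroup.S, ModularGroup.T}, SpecialLinearGroup.SL2Z_generators,
    Set.toFinite _⟩

/-- `Γ₀(M)` is finitely generated (Schreier). -/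
theorem fg_Gamma0_h883 (M : ℕ) [NeZero M] : Group.FG (Gamma0 M) := by
  have := fg_SL2Z_h883
  exact Subgroup.fg_of_index_ne_zero (Gamma0 M)

/-- `Hom(Γ₀(M), ℤ)` is a finitely generated `ℤ`-module. -/
theorem finite_homZ (M : ℕ) [NeZero M] : Module.Finite ℤ (Additive (Gamma0 M) →+ ℤ) := by
  obtain ⟨s, hs⟩ := Group.fg_def.mp (fg_Gamma0_h883 M)
  let ev : (Additive (Gamma0 M) →+ ℤ) →ₗ[ℤ] (s → ℤ) :=
    { toFun := fun ψ x => ψ (Additive.ofMul x.1)
      map_add' := fun ψ ψ' => rfl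
      map_smul' := fun n ψ => rfl }
  have hinj : Function.Injective ev := by
    intro ψ ψ' h
    have key : ∀ γ ∈ Subgroup.closure (s : Set (Gamma0 M)),
        ψ (Additive.ofMul γ) = ψ' (Additive.ofMul γ) := by
      intro γ hγ
      induction hγ using Subgroup.closure_induction with
      | mem x hx => exact congrFun h ⟨x, hx⟩
      | one => simp
      | mul x y _ _ hx hy => rw [ofMul_mul, map_add, map_add, hx, hy]
      | inv x _ hx => rw [ofMul_inv, map_neg, map_neg, hx]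
    refine AddMonoidHom.ext fun γ => ?_
    exact key (Additive.toMul γ) (by rw [hs]; exact Subgroup.mem_top _)
  exact Module.Finite.of_injective ev hinj

/-! ### The lattice of integral parabolic classes -/

section lattice

variable (M : ℕ)

/-- Integral parabolic classes (in the sense of `S29.IsParHom`). -/
def parZ : AddSubgroup (Additive (Gamma0 M) →+ ℤ) where
  carrier := {ψ | IsParHom (funOf ψ)}
  zero_mem' := ⟨fun _ _ => by simp [funOf], fun _ _ => rfl, fun _ _ _ _ => rfl⟩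
  add_mem' := by
    rintro ψ ψ' ⟨-, h2, h3⟩ ⟨-, h2', h3'⟩
    refine ⟨funOf_map_mul _, fun γ hγ => ?_, fun γ n hn hγ => ?_⟩
    · show ψ (Additive.ofMul γ) + ψ' (Additive.ofMul γ) = 0
      have e1 : ψ (Additive.ofMul γ) = 0 := h2 γ hγ
      have e2 : ψ' (Additive.ofMul γ) = 0 := h2' γ hγ
      rw [e1, e2, add_zero]
    · show ψ (Additive.ofMul γ) + ψ' (Additive.ofMul γ) = 0
      have e1 : ψ (Additive.ofMul γ) = 0 := h3 γ n hn hγ
      have e2 : ψ' (Additive.ofMul γ) = 0 := h3' γ n hn hγ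
      rw [e1, e2, add_zero]
  neg_mem' := by
    rintro ψ ⟨-, h2, h3⟩
    refine ⟨funOf_map_mul _, fun γ hγ => ?_, fun γ n hn hγ => ?_⟩
    · show - ψ (Additive.ofMul γ) = 0
      have e1 : ψ (Additive.ofMul γ) = 0 := h2 γ hγ
      rw [e1, neg_zero]
    · show - ψ (Additive.ofMul γ) = 0
      have e1 : ψ (Additive.ofMul γ) = 0 := h3 γ n hn hγ
      rw [e1, neg_zero]

theorem mem_parZ {ψ : Additive (Gamma0 M) →+ ℤ} : ψ ∈ parZ M ↔ IsParHom (funOf ψ) := Iff.rfl

/-- Extension of coefficients `Hom(Γ₀(M), ℤ) → Hom(Γ₀(M), ℂ)`. -/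
def toC : (Additive (Gamma0 M) →+ ℤ) →+ (Additive (Gamma0 M) →+ ℂ) :=
  AddMonoidHom.compHom (Int.castAddHom ℂ)

@[simp] theorem toC_apply (ψ : Additive (Gamma0 M) →+ ℤ) (γ : Additive (Gamma0 M)) :
    toC M ψ γ = ((ψ γ : ℤ) : ℂ) := rfl

theorem toC_eq_comp (ψ : Additive (Gamma0 M) →+ ℤ) : toC M ψ = (Int.castAddHom ℂ).comp ψ := rfl

theorem toC_injective : Function.Injective (toC M) := by
  intro ψ ψ' h
  refine AddMonoidHom.ext fun γ => ?_
  have := congrArg (fun φ : Additive (Gamma0 M) →+ ℂ => φ γ) h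
  simp only [toC_apply] at this
  exact_mod_cast this

/-- The lattice `K ⊂ Hom(Γ₀(M), ℂ)` of integral parabolic classes. -/
def latK : AddSubgroup (Additive (Gamma0 M) →+ ℂ) := (parZ M).map (toC M)

theorem latK_fg [NeZero M] : (latK M).FG := by
  haveI := finite_homZ M
  have h1 : (AddSubgroup.toIntSubmodule (parZ M)).FG := IsNoetherian.noetherian _
  have h2 : (parZ M).FG := by
    have := (Submodule.fg_iff_addSubgroup_fg _).mp h1
    simpa using this
  obtain ⟨s, hs⟩ := h2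
  classical
  refine ⟨s.image (toC M), ?_⟩
  rw [Finset.coe_image, ← AddMonoidHom.map_closure, hs]
  rfl

theorem latK_le_parabolic {x : Additive (Gamma0 M) →+ ℂ} (hx : x ∈ latK M) :
    x ∈ parabolicHoms ℂ (Gamma0 M) ℂ := by
  obtain ⟨ψ, hψ, rfl⟩ := hx
  rw [mem_parabolicHoms_iff]
  intro γ hγ
  have ht : (G0.mat γ).trace = 2 ∨ (G0.mat γ).trace = -2 := by
    have h4 : ((G0.mat γ).trace - 2) * ((G0.mat γ).trace + 2) = 0 := by
      have : (G0.mat γ).trace ^ 2 = 4 := hγ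
      linear_combination this
    rcases mul_eq_zero.mp h4 with h | h
    · left; linarith
    · right; linarith
  have e : ψ (Additive.ofMul γ) = 0 := (mem_parZ M).mp hψ |>.parabolic γ ht
  rw [toC_apply, e, Int.cast_zero]

end lattice

/-! ### Hecke operators on `V` -/

section hecke

variable (M : ℕ)

/-- The index set: primes not dividing `M`. -/
abbrev GoodPrime : Type := {l : ℕ // l.Prime ∧ ¬ l ∣ M}

variable {M}

/-- `T_l` on `Hom(Γ₀(M), A)` for `l : GoodPrime M`. -/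
def tOp {A : Type*} [AddCommGroup A] (i : GoodPrime M) (φ : Additive (Gamma0 M) →+ A) :
    Additive (Gamma0 M) →+ A :=
  haveI : Fact i.1.Prime := ⟨i.2.1⟩
  H642.heckeTransfer i.2.2 φ

theorem tOp_eq {A : Type*} [AddCommGroup A] {l : ℕ} [Fact l.Prime] (hl : l.Prime) (hlM : ¬ l ∣ M)
    (φ : Additive (Gamma0 M) →+ A) :
    tOp (⟨l, hl, hlM⟩ : GoodPrime M) φ = H642.heckeTransfer hlM φ := rfl

/-- `T_l` as a `ℂ`-linear endomorphism of `V`. -/
def tEnd (i : GoodPrime M) : Module.End ℂ (Additive (Gamma0 M) →+ ℂ) :=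
  haveI : Fact i.1.Prime := ⟨i.2.1⟩
  { toFun := fun φ => tOp i φ
    map_add' := fun φ ψ => H642.heckeTransfer_add i.2.2 φ ψ
    map_smul' := fun c φ => heckeTransfer_smul i.2.2 c φ }

@[simp] theorem tEnd_apply (i : GoodPrime M) (φ : Additive (Gamma0 M) →+ ℂ) :
    tEnd i φ = tOp i φ := rfl

theorem tOp_comp {A B : Type*} [AddCommGroup A] [AddCommGroup B] (i : GoodPrime M) (π : A →+ B)
    (φ : Additive (Gamma0 M) →+ A) : tOp i (π.comp φ) = π.comp (tOp i φ) :=
  haveI : Fact i.1.Prime := ⟨i.2.1⟩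
  H642.heckeTransfer_comp i.2.2 π φ

theorem funOf_tOp {A : Type*} [AddCommGroup A] (i : GoodPrime M)
    (φ : Additive (Gamma0 M) →+ A) : funOf (tOp i φ) = heckeCoh M i.1 (funOf φ) :=
  haveI : Fact i.1.Prime := ⟨i.2.1⟩
  funOf_heckeTransfer i.2.2 φ

theorem tOp_mem_parZ (i : GoodPrime M) {ψ : Additive (Gamma0 M) →+ ℤ} (hψ : ψ ∈ parZ M) :
    tOp i ψ ∈ parZ M := by
  rw [mem_parZ, funOf_tOp]
  exact H149.isParHom_heckeCoh i.2.1 i.2.2 ((mem_parZ M).mp hψ)

theorem tEnd_toC (i : GoodPrime M) (ψ : Additive (Gamma0 M) →+ ℤ) :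
    tEnd i (toC M ψ) = toC M (tOp i ψ) := by
  rw [tEnd_apply, toC_eq_comp, toC_eq_comp, tOp_comp]

theorem tEnd_mem_latK (i : GoodPrime M) {x : Additive (Gamma0 M) →+ ℂ} (hx : x ∈ latK M) :
    tEnd i x ∈ latK M := by
  obtain ⟨ψ, hψ, rfl⟩ := hx
  exact ⟨tOp i ψ, tOp_mem_parZ i hψ, (tEnd_toC i ψ).symm⟩

variable [NeZero M]

theorem tEnd_periodHomPair (i : GoodPrime M) (f₁ f₂ : CuspForm (Gamma0 M) 2) :
    tEnd i (periodHomPair M (f₁, f₂)) =
      periodHomPair M (CuspForm.heckeTLin 2 i.2.1 i.2.2 f₁, CuspForm.heckeTLin 2 i.2.1 i.2.2 f₂) :=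
  haveI : Fact i.1.Prime := ⟨i.2.1⟩
  heckeTransfer_periodHomPair i.2.1 i.2.2 f₁ f₂

/-- The Hecke transfers commute on parabolic classes (via Eichler–Shimura). -/
theorem tEnd_comm_of_parabolic (i j : GoodPrime M) {x : Additive (Gamma0 M) →+ ℂ}
    (hx : x ∈ parabolicHoms ℂ (Gamma0 M) ℂ) : tEnd i (tEnd j x) = tEnd j (tEnd i x) := by
  obtain ⟨-, hrange⟩ := Fermat.Agent.S21.main M
  have hxr : x ∈ LinearMap.range (periodHomPair M) := by rw [hrange]; exact hx
  obtain ⟨⟨f₁, f₂⟩, rfl⟩ := hxr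
  rw [tEnd_periodHomPair, tEnd_periodHomPair, tEnd_periodHomPair, tEnd_periodHomPair]
  have hc := (CuspForm.heckeTLin_comm (N := M) 2 i.2.1 i.2.2 j.2.1 j.2.2).eq
  have h1 := congrArg (fun T : Module.End ℂ (CuspForm (Gamma0 M) 2) => T f₁) hc
  have h2 := congrArg (fun T : Module.End ℂ (CuspForm (Gamma0 M) 2) => T f₂) hc
  simp only [Module.End.mul_apply] at h1 h2
  rw [h1, h2]

end hecke

/-! ### Deligne–Serre on the lattice -/

section ds

variable {M : ℕ} [NeZero M]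

/-- **Lattice step of R3.**  An integral parabolic class `y ∉ pK` which is an eigenvector mod `pK`
of the `T_l` (`l ∤ M`, `l ∉ S`) with eigenvalues `a l` yields a normalized eigenform of level `M`
whose `l`-th coefficients are congruent to `a l` modulo a maximal ideal over `p`. -/
theorem exists_eigenform_of_lattice_class (p : ℕ) (S : Set ℕ) (a : ℕ → ℤ)
    (y : Additive (Gamma0 M) →+ ℂ) (hy : y ∈ latK M) (hyp : ∀ z ∈ latK M, y ≠ p • z)
    (heig : ∀ i : GoodPrime M, i.1 ∉ S → ∃ z ∈ latK M, tEnd i y - a i.1 • y = p • z) :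
    ∃ (g : CuspForm (Gamma0 M) 2) (𝔪 : Ideal (integralClosure ℤ ℂ)),
      g.IsNormalizedEigenform ∧ 𝔪.IsMaximal ∧ (p : integralClosure ℤ ℂ) ∈ 𝔪 ∧
      ∀ l : ℕ, l.Prime → ¬ l ∣ M → l ∉ S →
        ∃ b : integralClosure ℤ ℂ, (b : ℂ) = qCoeff g l ∧
          b - ((a l : ℤ) : integralClosure ℤ ℂ) ∈ 𝔪 := by
  obtain ⟨v, b, 𝔪, hv0, hvU, hvb, h𝔪, hp𝔪, hcong⟩ :=
    Fermat.Agent.S41.H401.ds_general_mem (tEnd (M := M)) (latK M) (latK_fg M)
      (fun i x hx => tEnd_mem_latK i hx)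
      (fun i j x hx => tEnd_comm_of_parabolic i j (latK_le_parabolic M hx))
      p {i | i.1 ∉ S} (fun i => a i.1) y hy hyp (fun i hi => heig i hi)
      (parabolicHoms ℂ (Gamma0 M) ℂ) (fun x hx => latK_le_parabolic M hx)
  classical
  let b' : ℕ → ℂ := fun l => if h : l.Prime ∧ ¬ l ∣ M then ((b ⟨l, h⟩ : integralClosure ℤ ℂ) : ℂ) else 0
  obtain ⟨g, hg, hgb⟩ := exists_eigenform_of_parabolic_eigen (M := M) ∅ b' v hvU hv0
    (fun l _ hl _ => by
      have hlp : l.Prime := Fact.out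
      have h := hvb ⟨l, hlp, hl⟩
      rw [tEnd_apply, tOp_eq hlp hl] at h
      rw [h]
      simp only [b', dif_pos (And.intro hlp hl)])
  refine ⟨g, 𝔪, hg, h𝔪, hp𝔪, fun l hl hlM hlS => ⟨b ⟨l, hl, hlM⟩, ?_, hcong ⟨l, hl, hlM⟩ hlS⟩⟩
  rw [hgb l hl hlM (Set.notMem_empty l)]
  simp only [b', dif_pos (And.intro hl hlM)]

end ds

end Fermat.Agent.Ribet.H883
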