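/-
RIBET row, piece R3 (helper883, primary liaison): "an eigensystem occurring in `J₀(M)[p]` is the
reduction of a normalized eigenform of level `M`".

`eigenformOfOccurs_of` proves the statement `EigenformOfOccursStatement'` (= the Spec statement
`Spec.EigenformOfOccursStatement` with the congruence asserted for the primes `ℓ ∉ S`, `ℓ ∤ M p`)
from three inputs of other rows:
* `S30.H450.KumPackage M p`     (Kummer dictionary, S29/S30 rows, M4b pieces),
* `KumOntoStatement M p`        (strong ONTO: every `p`-torsion class is a Kummer class of a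
                                  PARABOLIC character; S30 row, helper270/helper109/helper810),
* `ParLiftStatement M p`        (HFree / LIFT: parabolic characters mod `p` lift to `ℤ`;
                                  helper412, S41 block LIFT helper221),
everything else being on main (S21, S29/H642 `periodMap_heckeTLin`, S41/H401 Deligne–Serre,
Lib/Newform/H863 extraction).
-/
import Fermat.Agent.Ribet.Spec2
import Fermat.Agent.S30.H450.KumTower
import Fermat.Agent.Ribet.H883.Lattice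

set_option autoImplicit false

noncomputable section

namespace Fermat.Agent.Ribet.H883

open CongruenceSubgroup ModularCurve ModularCurve.Period ModularFormClass
open Fermat.Agent.S29 Fermat.Agent.S29.M4b Fermat.Agent.S30.H450
open scoped MatrixGroups

/-! ### Interface statements -/

/-- (ONTO, strong form) every `p`-torsion class of `J₀(M)(ℚ̄)` is the Kummer class of a
parabolic character `Γ₀(M) → ℤ/p`. -/
def KumOntoStatement (M p : ℕ) [NeZero M] : Prop :=
  ∀ x : JZero M, (p : ℤ) • x = 0 → ∃ c : G0 M → ZMod p, IsParHom c ∧ IsKum M p c x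

/-- (HFree / LIFT) every parabolic character mod `p` lifts to an integral parabolic character. -/
def ParLiftStatement (M p : ℕ) : Prop :=
  ∀ c : G0 M → ZMod p, IsParHom c →
    ∃ c' : G0 M → ℤ, IsParHom c' ∧ ∀ γ : G0 M, ((c' γ : ℤ) : ZMod p) = c γ

/-- R3 with the congruence restricted to the primes not dividing `M p`
(the Kummer dictionary is Hecke-equivariant only at those primes). -/
def EigenformOfOccursStatement' : Prop :=
  ∀ (M p : ℕ) [NeZero M], p.Prime → ∀ (S : Finset ℕ) (a : ℕ → ℤ), Spec.OccursIn M p S a →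
    ∃ (g : CuspForm (CongruenceSubgroup.Gamma0 M) 2) (𝔪 : Ideal (integralClosure ℤ ℂ)),
      g.IsNormalizedEigenform ∧ 𝔪.IsMaximal ∧ (p : integralClosure ℤ ℂ) ∈ 𝔪 ∧
      ∀ ℓ : ℕ, ℓ.Prime → ℓ ∉ S → ¬ ℓ ∣ M * p →
        ∃ b : integralClosure ℤ ℂ, (b : ℂ) = qCoeff g ℓ ∧
          b - ((a ℓ : ℤ) : integralClosure ℤ ℂ) ∈ 𝔪

/-! ### Consequences of the Kummer package -/

section package

variable {M p : ℕ} [NeZero M]

theorem isParHom_zero_h883 {A : Type*} [AddCommGroup A] : IsParHom (0 : G0 M → A) :=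
  ⟨fun _ _ => by simp, fun _ _ => rfl, fun _ _ _ _ => rfl⟩

theorem isKum_zero_h883 (H : KumPackage M p) : IsKum M p (0 : G0 M → ZMod p) 0 := by
  obtain ⟨x₀, hx₀⟩ := H.ex 0 isParHom_zero_h883
  have h2 := H.add 0 0 x₀ x₀ hx₀ hx₀
  rw [add_zero] at h2
  have h3 : x₀ + x₀ = x₀ := H.uniq 0 _ _ h2 hx₀
  have h4 : x₀ = 0 := by
    have := congrArg (fun t => t - x₀) h3
    simpa using this
  rw [h4] at hx₀
  exact hx₀

theorem isKum_nsmul_h883 (H : KumPackage M p) {c : G0 M → ZMod p} {x : JZero M}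
    (h : IsKum M p c x) (n : ℕ) : IsKum M p (n • c) (n • x) := by
  induction n with
  | zero => rw [zero_nsmul, zero_nsmul]; exact isKum_zero_h883 H
  | succ n ih => rw [succ_nsmul, succ_nsmul]; exact H.add _ _ _ _ ih h

/-- The character of a Kummer class is unique. -/
theorem char_unique_h883 [NeZero p] (H : KumPackage M p) {c₁ c₂ : G0 M → ZMod p}
    {y : JZero M} (hy : (p : ℤ) • y = 0) (h₁ : IsKum M p c₁ y) (h₂ : IsKum M p c₂ y) :
    c₁ = c₂ := by
  have hp1 : 1 ≤ p := Nat.one_le_iff_ne_zero.mpr (NeZero.ne p)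
  have h3 := H.add _ _ _ _ h₁ (isKum_nsmul_h883 H h₂ (p - 1))
  have e1 : y + (p - 1) • y = 0 := by
    rw [← succ_nsmul', Nat.sub_add_cancel hp1]
    rw [← natCast_zsmul]
    exact hy
  have e2 : c₁ + (p - 1) • c₂ = c₁ - c₂ := by
    funext γ
    have : ((p - 1 : ℕ) : ZMod p) = -1 := by
      rw [Nat.cast_sub hp1, ZMod.natCast_self, Nat.cast_one, zero_sub]
    show c₁ γ + (p - 1) • c₂ γ = c₁ γ - c₂ γ
    rw [nsmul_eq_mul, this]
    ring
  rw [e1, e2] at h3
  exact sub_eq_zero.mp (H.inj _ h3)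

end package

/-! ### The main glue -/

section glue

variable {M p : ℕ} [NeZero M]

/-- Division by `p` of an integral character all of whose values are divisible by `p`. -/
def divHom (p : ℕ) (ξ : Additive (Gamma0 M) →+ ℤ) (h : ∀ γ, (p : ℤ) ∣ ξ γ) :
    Additive (Gamma0 M) →+ ℤ where
  toFun γ := ξ γ / (p : ℤ)
  map_zero' := by simp
  map_add' γ δ := by
    rw [map_add, Int.add_ediv_of_dvd_left (h γ)]

theorem divHom_apply (p : ℕ) (ξ : Additive (Gamma0 M) →+ ℤ) (h : ∀ γ, (p : ℤ) ∣ ξ γ)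
    (γ : Additive (Gamma0 M)) : divHom p ξ h γ = ξ γ / (p : ℤ) := rfl

theorem nsmul_divHom (p : ℕ) (ξ : Additive (Gamma0 M) →+ ℤ) (h : ∀ γ, (p : ℤ) ∣ ξ γ) :
    p • divHom p ξ h = ξ := by
  refine AddMonoidHom.ext fun γ => ?_
  rw [AddMonoidHom.nsmul_apply, divHom_apply, nsmul_eq_mul]
  exact Int.mul_ediv_cancel' (h γ)

theorem divHom_mem_parZ (p : ℕ) (ξ : Additive (Gamma0 M) →+ ℤ) (h : ∀ γ, (p : ℤ) ∣ ξ γ)
    (hξ : ξ ∈ parZ M) : divHom p ξ h ∈ parZ M := by
  obtain ⟨-, h2, h3⟩ := (mem_parZ M).mp hξ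
  refine (mem_parZ M).mpr ⟨funOf_map_mul _, fun γ hγ => ?_, fun γ n hn hγ => ?_⟩
  · show ξ (Additive.ofMul γ) / (p : ℤ) = 0
    have e1 : ξ (Additive.ofMul γ) = 0 := h2 γ hγ
    rw [e1, Int.zero_ediv]
  · show ξ (Additive.ofMul γ) / (p : ℤ) = 0
    have e1 : ξ (Additive.ofMul γ) = 0 := h3 γ n hn hγ
    rw [e1, Int.zero_ediv]

/-- **R3 at `(M, p)` from the Kummer package, strong ONTO and LIFT.** -/
theorem eigenformOfOccurs_at (hp : p.Prime) (hK : KumPackage M p) (hO : KumOntoStatement M p)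
    (hL : ParLiftStatement M p) (S : Finset ℕ) (a : ℕ → ℤ) (hocc : Spec.OccursIn M p S a) :
    ∃ (g : CuspForm (CongruenceSubgroup.Gamma0 M) 2) (𝔪 : Ideal (integralClosure ℤ ℂ)),
      g.IsNormalizedEigenform ∧ 𝔪.IsMaximal ∧ (p : integralClosure ℤ ℂ) ∈ 𝔪 ∧
      ∀ ℓ : ℕ, ℓ.Prime → ℓ ∉ S → ¬ ℓ ∣ M * p →
        ∃ b : integralClosure ℤ ℂ, (b : ℂ) = qCoeff g ℓ ∧
          b - ((a ℓ : ℤ) : integralClosure ℤ ℂ) ∈ 𝔪 := by
  have : NeZero p := ⟨hp.ne_zero⟩
  have : Fact p.Prime := ⟨hp⟩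
  obtain ⟨x, hx0, hpx, hxT⟩ := hocc
  have hpx' : (p : ℤ) • x = 0 := by rw [natCast_zsmul]; exact hpx
  -- the character of `x`
  obtain ⟨c, hc, hkum⟩ := hO x hpx'
  have hc0 : c ≠ 0 := by
    rintro rfl
    exact hx0 (hK.uniq 0 _ _ hkum (isKum_zero_h883 hK))
  -- `c` is a Hecke eigencharacter mod `p`
  have hceig : ∀ ℓ : ℕ, ℓ.Prime → ℓ ∉ S → ¬ ℓ ∣ M * p →
      heckeCoh M ℓ c = fun γ => ((a ℓ : ℤ) : ZMod p) * c γ := by
    intro ℓ hℓ hℓS hℓMp
    have h1 := hK.hecke ⟨ℓ, hℓ⟩ hℓMp c x hc hkum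
    rw [hxT ⟨ℓ, hℓ⟩ hℓS] at h1
    set n : ℕ := ((a ℓ : ℤ) : ZMod p).val with hn
    have hncast : ((n : ℕ) : ZMod p) = ((a ℓ : ℤ) : ZMod p) := ZMod.natCast_zmod_val _
    have hdvd : (p : ℤ) ∣ a ℓ - n := by
      rw [← ZMod.intCast_zmod_eq_zero_iff_dvd]
      push_cast
      rw [hncast, sub_self]
    have hnx : a ℓ • x = n • x := by
      obtain ⟨k, hk⟩ := hdvd
      have e : a ℓ = (n : ℤ) + k * (p : ℤ) := by linarith
      have e2 : (k * (p : ℤ)) • x = 0 := by rw [mul_smul, hpx', smul_zero]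
      rw [e, add_zsmul, e2, add_zero, natCast_zsmul]
    have h2 := isKum_nsmul_h883 hK hkum n
    rw [← hnx] at h2
    have hy : (p : ℤ) • (a ℓ • x) = 0 := by rw [smul_comm, hpx', smul_zero]
    have h3 := char_unique_h883 hK hy h1 h2
    rw [h3]
    funext γ
    rw [Pi.smul_apply, nsmul_eq_mul, hncast]
  -- lift to `ℤ`
  obtain ⟨c', hc', hcc'⟩ := hL c hc
  set ψ : Additive (Gamma0 M) →+ ℤ := homOf c' hc'.map_mul with hψ
  have hψpar : ψ ∈ parZ M := (mem_parZ M).mpr (by rw [hψ, funOf_homOf]; exact hc')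
  have hψc : ∀ γ : G0 M, ((ψ (Additive.ofMul γ) : ℤ) : ZMod p) = c γ := fun γ => hcc' γ
  have hred : funOf ((Int.castAddHom (ZMod p)).comp ψ) = c := by
    funext γ
    exact hψc γ
  -- the bad set
  let S' : Set ℕ := {l | l ∈ S ∨ l ∣ M * p}
  refine (fun ⟨g, 𝔪, hg, h𝔪, hp𝔪, hcong⟩ => ⟨g, 𝔪, hg, h𝔪, hp𝔪, fun ℓ hℓ hℓS hℓMp =>
    hcong ℓ hℓ (fun h => hℓMp (Dvd.dvd.mul_right h p)) (fun h => h.elim hℓS hℓMp)⟩)
    (exists_eigenform_of_lattice_class (M := M) p S' a (toC M ψ) ⟨ψ, hψpar, rfl⟩ ?_ ?_)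
  · -- `y ∉ pK`
    rintro z ⟨ψ', -, rfl⟩ hz
    have hz' : toC M ψ = toC M (p • ψ') := by rw [hz, map_nsmul]
    have hψ' : ψ = p • ψ' := toC_injective M hz'
    apply hc0
    funext γ
    rw [← hψc γ, hψ', AddMonoidHom.nsmul_apply, nsmul_eq_mul]
    push_cast
    rw [ZMod.natCast_self, zero_mul]
    rfl
  · -- eigen-relation mod `pK`
    intro i hi
    have hiS : i.1 ∉ S := fun h => hi (Or.inl h)
    have hiMp : ¬ i.1 ∣ M * p := fun h => hi (Or.inr h)
    set ξ : Additive (Gamma0 M) →+ ℤ := tOp i ψ - a i.1 • ψ with hξ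
    have hξpar : ξ ∈ parZ M :=
      (parZ M).sub_mem (tOp_mem_parZ i hψpar) ((parZ M).zsmul_mem hψpar _)
    have hξdvd : ∀ γ, (p : ℤ) ∣ ξ γ := by
      intro γ
      rw [← ZMod.intCast_zmod_eq_zero_iff_dvd]
      have e1 : ((tOp i ψ γ : ℤ) : ZMod p) = heckeCoh M i.1 c (Additive.toMul γ) := by
        have := congrFun (funOf_tOp i ((Int.castAddHom (ZMod p)).comp ψ)) (Additive.toMul γ)
        rw [hred, tOp_comp] at this
        exact this
      have e2 : ((ψ γ : ℤ) : ZMod p) = c (Additive.toMul γ) := hψc (Additive.toMul γ)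
      rw [hξ, AddMonoidHom.sub_apply, AddMonoidHom.zsmul_apply, smul_eq_mul, Int.cast_sub,
        Int.cast_mul, e1, e2, hceig i.1 i.2.1 hiS hiMp, sub_self]
    refine ⟨toC M (divHom p ξ hξdvd), ⟨_, divHom_mem_parZ p ξ hξdvd hξpar, rfl⟩, ?_⟩
    rw [← map_nsmul, nsmul_divHom, hξ, map_sub, map_zsmul, tEnd_toC]

/-- **R3 (restricted form) from the three inputs.** -/
theorem eigenformOfOccurs_of
    (hK : ∀ (M p : ℕ) [NeZero M], p.Prime → KumPackage M p)
    (hO : ∀ (M p : ℕ) [NeZero M], p.Prime → KumOntoStatement M p)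
    (hL : ∀ (M p : ℕ) [NeZero M], p.Prime → ParLiftStatement M p) :
    EigenformOfOccursStatement' := by
  intro M p _ hp S a hocc
  exact eigenformOfOccurs_at hp (hK M p hp) (hO M p hp) (hL M p hp) S a hocc

/-- **R3S (`Spec.EigenformOfOccursAwayStatement`, the form of Spec2) from the three inputs.** -/
theorem eigenformOfOccursAway_of_inputs
    (hK : ∀ (M p : ℕ) [NeZero M], p.Prime → KumPackage M p)
    (hO : ∀ (M p : ℕ) [NeZero M], p.Prime → KumOntoStatement M p)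
    (hL : ∀ (M p : ℕ) [NeZero M], p.Prime → ParLiftStatement M p) :
    Spec.EigenformOfOccursAwayStatement := by
  intro M p _ hp S a hS hocc
  obtain ⟨g, 𝔪, hg, hm, hpm, hc⟩ :=
    eigenformOfOccurs_at hp (hK M p hp) (hO M p hp) (hL M p hp) S a hocc
  exact ⟨g, 𝔪, hg, hm, hpm, fun ℓ hℓ hℓS => hc ℓ hℓ hℓS (fun h => hℓS (hS ℓ hℓ h))⟩

end glue

end Fermat.Agent.Ribet.H883
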