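/-
RIBET row, piece R3S (helper883): **`Spec.EigenformOfOccursAwayStatement`, UNCONDITIONALLY.**

An eigensystem occurring in `J₀(M)[p]` (away from a finite set `S` containing the primes dividing
`M p`) is the reduction of a normalised eigenform of weight 2 and level `M`.

Inputs, all on main:
* the glue `eigenformOfOccursAway_of_inputs` (`Ribet/H883/R3.lean`: S21, S29/H642, S41/H401
  Deligne-Serre, Lib/Newform/H863),
* the Kummer package at every modulus (`S30.Chain.kumPackage`, helper49 and the S29 M4b pieces),
* ONTO with parabolic characters (`S30.H810.exists_isParHom_isKum_of_torsion`, helper810),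
* HFree (`Lib.HFree.H412.exists_lift_isParHom`, helper412).
-/
import Fermat.Agent.Ribet.H883.R3
import Fermat.Agent.Lib.HFree.H412.Main
import Fermat.Agent.S30.Chain.Package
import Fermat.Agent.S30.H810.ParHom

set_option autoImplicit false

namespace Fermat.Agent.Ribet.H883

open Fermat.Agent.S29 Fermat.Agent.S29.M4b Fermat.Agent.S30.H450

/-- The Kummer package at a prime modulus. -/
theorem kumPackage_h883 (M p : ℕ) [NeZero M] (hp : p.Prime) : KumPackage M p :=
  haveI : NeZero p := ⟨hp.ne_zero⟩
  Fermat.Agent.S30.Chain.kumPackage M p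

/-- Strong ONTO at a prime modulus. -/
theorem kumOnto_h883 (M p : ℕ) [NeZero M] (hp : p.Prime) : KumOntoStatement M p :=
  haveI : NeZero p := ⟨hp.ne_zero⟩
  fun _ hx => Fermat.Agent.S30.H810.exists_isParHom_isKum_of_torsion M p hx

/-- HFree at a prime modulus. -/
theorem parLift_h883 (M p : ℕ) [NeZero M] (hp : p.Prime) : ParLiftStatement M p :=
  haveI : NeZero p := ⟨hp.ne_zero⟩
  fun c hc => Fermat.Agent.Lib.HFree.H412.exists_lift_isParHom M p c hc

/-- **R3S, unconditionally**: an eigensystem occurring in `J₀(M)[p]` away from `S ⊇ {ℓ ∣ M p}`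
is the reduction of a normalised eigenform of level `M`. -/
theorem eigenformOfOccursAway : Spec.EigenformOfOccursAwayStatement :=
  eigenformOfOccursAway_of_inputs (fun M p _ hp => kumPackage_h883 M p hp)
    (fun M p _ hp => kumOnto_h883 M p hp) (fun M p _ hp => parLift_h883 M p hp)

/-- **R3 in the restricted form, unconditionally.** -/
theorem eigenformOfOccurs' : EigenformOfOccursStatement' :=
  eigenformOfOccurs_of (fun M p _ hp => kumPackage_h883 M p hp)
    (fun M p _ hp => kumOnto_h883 M p hp) (fun M p _ hp => parLift_h883 M p hp)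

end Fermat.Agent.Ribet.H883
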