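import Fermat.Agent.A2.H373.Split
import Mathlib.FieldTheory.Galois.Basic
import Mathlib.RingTheory.Ideal.Operations

/-!
# RIBET / S2 / W-ALGP, leaf SHEETS-W: the abstract wild Kummer splitting   (helper883)

Mathlib + `A2/H373/Split*` only.  Wild analogue of `A2.H373.KummerSplit` for a PRIME exponent `p`
which need NOT be a unit of `V`.  Setting (`KummerSplitW V w p ζ y g c`):

* `F ⊆ L` fields, `V` a discrete valuation subring of `F` with uniformiser `w`;
* `p` prime, `ζ ∈ F` a primitive `p`-th root of unity, `λ = ζ - 1`;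
* `L = F[y_i]`, `y_i ^ p = g_i ∈ Vˣ`, and `g_i ≡ c_i ^ p mod λ^p 𝔪_V`.

Results, for every valuation subring `W` of `L` with `W ∩ F = V`:
`exists_type`, `eq_of_type`, `finite`, `residue`, `residue_pow`, `val_le_w`, `unramified`,
`free`, `triv` (as in the tame case) and `trans` (for `L / F` finite Galois any two `W` over `V`
are conjugate).
-/

set_option autoImplicit false
set_option linter.style.haveILetI false

namespace Fermat.Agent.Ribet.H883

open Fermat.Agent.A2.H373

section Roots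

variable {K : Type*} [Field K] {Γ₀ : Type*} [LinearOrderedCommGroupWithZero Γ₀]
  (v : Valuation K Γ₀)

theorem val_root_eq_one {n : ℕ} (hn : n ≠ 0) {ξ : K} (hξ : ξ ^ n = 1) : v ξ = 1 := by
  have h1 : v (ξ ^ n) = 1 := by rw [hξ, map_one]
  rw [map_pow] at h1
  exact (pow_eq_one_iff_of_nonneg zero_le hn).1 h1

theorem val_geom_sum_le_one {n : ℕ} (hn : n ≠ 0) {ξ : K} (hξ : ξ ^ n = 1) (j : ℕ) :
    v (∑ k ∈ Finset.range j, ξ ^ k) ≤ 1 := by
  refine Valuation.map_sum_le _ fun k _ => ?_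
  rw [map_pow, val_root_eq_one v hn hξ, one_pow]

/-- `v (ζ^j - 1) = v (ζ - 1)` for a primitive `p`-th root of unity and `p ∤ j`. -/
theorem val_pow_sub_one_eq {p : ℕ} (hp : p.Prime) {ζ : K} (hζ : IsPrimitiveRoot ζ p) {j : ℕ}
    (hj : ¬ p ∣ j) : v (ζ ^ j - 1) = v (ζ - 1) := by
  have hp0 : p ≠ 0 := hp.ne_zero
  refine le_antisymm ?_ ?_
  · rw [← mul_geom_sum, map_mul]
    calc v (ζ - 1) * v (∑ i ∈ Finset.range j, ζ ^ i) ≤ v (ζ - 1) * 1 :=
          mul_le_mul' le_rfl (val_geom_sum_le_one v hp0 hζ.pow_eq_one j)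
      _ = v (ζ - 1) := mul_one _
  · have hcop : Nat.Coprime j p := ((Nat.Prime.coprime_iff_not_dvd hp).2 hj).symm
    obtain ⟨m, -, hm⟩ := Nat.exists_mul_mod_eq_one_of_coprime hcop hp.one_lt
    have e : ζ - 1 = (ζ ^ j - 1) * ∑ i ∈ Finset.range m, (ζ ^ j) ^ i := by
      rw [mul_geom_sum, ← pow_mul, ← pow_mod_orderOf, ← hζ.eq_orderOf, hm, pow_one]
    have hζj : (ζ ^ j) ^ p = 1 := by rw [← pow_mul, mul_comm, pow_mul, hζ.pow_eq_one, one_pow]
    rw [e, map_mul]
    calc v (ζ ^ j - 1) * v (∑ i ∈ Finset.range m, (ζ ^ j) ^ i) ≤ v (ζ ^ j - 1) * 1 :=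
          mul_le_mul' le_rfl (val_geom_sum_le_one v hp0 hζj m)
      _ = v (ζ ^ j - 1) := mul_one _

theorem val_sub_one_ne_zero {p : ℕ} (hp : p.Prime) {ζ : K} (hζ : IsPrimitiveRoot ζ p) :
    v (ζ - 1) ≠ 0 := by
  rw [Valuation.ne_zero_iff]
  exact sub_ne_zero.2 (hζ.ne_one hp.one_lt)

/-- the geometric sums `e_j = (ζ^j - 1)/(ζ - 1)` are units for `p ∤ j` -/
theorem val_geom_sum_eq_one {p : ℕ} (hp : p.Prime) {ζ : K} (hζ : IsPrimitiveRoot ζ p) {j : ℕ}
    (hj : ¬ p ∣ j) : v (∑ k ∈ Finset.range j, ζ ^ k) = 1 := by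
  have h := val_pow_sub_one_eq v hp hζ hj
  rw [← mul_geom_sum, map_mul] at h
  have h0 := val_sub_one_ne_zero v hp hζ
  exact mul_left_cancel₀ h0 (h.trans (mul_one _).symm)

theorem val_sub_one_le_one {p : ℕ} (hp : p.Prime) {ζ : K} (hζ : IsPrimitiveRoot ζ p) :
    v (ζ - 1) ≤ 1 := by
  refine (Valuation.map_sub _ _ _).trans ?_
  rw [val_root_eq_one v hp.ne_zero hζ.pow_eq_one, map_one, max_self]

/-- a `p`-th root of unity `≡ 1 mod (ζ - 1) 𝔪` is `1` -/
theorem eq_one_of_pow_eq_one_wild {p : ℕ} (hp : p.Prime) {ζ : K} (hζ : IsPrimitiveRoot ζ p)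
    {ξ : K} (hξ : ξ ^ p = 1) (hξ1 : v (ξ - 1) < v (ζ - 1)) : ξ = 1 := by
  haveI : NeZero p := ⟨hp.ne_zero⟩
  obtain ⟨a, ha, rfl⟩ := hζ.eq_pow_of_pow_eq_one hξ
  by_cases hpa : p ∣ a
  · obtain ⟨b, rfl⟩ := hpa
    rw [pow_mul, hζ.pow_eq_one, one_pow]
  · rw [val_pow_sub_one_eq v hp hζ hpa] at hξ1
    exact absurd hξ1 (lt_irrefl _)

/-- `∏_{j < p} (u - ζ^j) = u^p - 1` -/
theorem prod_range_sub_pow {n : ℕ} (hn : 0 < n) {ζ : K} (hζ : IsPrimitiveRoot ζ n) (u : K) :
    ∏ j ∈ Finset.range n, (u - ζ ^ j) = u ^ n - 1 := by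
  classical
  have h1 := IsPrimitiveRoot.pow_sub_pow_eq_prod_sub_mul u 1 hn hζ
  rw [one_pow] at h1
  rw [h1]
  have h2 : Polynomial.nthRootsFinset n (1 : K) = (Finset.range n).image (fun j => ζ ^ j) := by
    apply Finset.eq_of_subset_of_card_le
    · intro ξ hξ
      rw [Polynomial.mem_nthRootsFinset hn] at hξ
      haveI : NeZero n := ⟨hn.ne'⟩
      obtain ⟨a, ha, rfl⟩ := hζ.eq_pow_of_pow_eq_one hξ
      exact Finset.mem_image.2 ⟨a, Finset.mem_range.2 ha, rfl⟩
    · rw [hζ.card_nthRootsFinset]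
      exact Finset.card_image_le.trans (by rw [Finset.card_range])
  rw [h2, Finset.prod_image]
  · exact Finset.prod_congr rfl fun j _ => by rw [mul_one]
  · intro i hi j hj hij
    exact hζ.pow_inj (Finset.mem_range.1 hi) (Finset.mem_range.1 hj) hij

end Roots

section Normalized

variable {F L : Type*} [Field F] [Field L] [Algebra F L]

local notation "ι" => algebraMap F L

variable {V : ValuationSubring F} {w : F} {𝒲 : Set (ValuationSubring L)}

theorem approxAt_prod (h𝒲 : ∀ W ∈ 𝒲, Over V W) (hw : IsUnif V w) {n : ℕ} {κ : Type*}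
    (s : Finset κ) (f : κ → L) (hf : ∀ i ∈ s, ApproxAt V w 𝒲 n (f i)) :
    ApproxAt V w 𝒲 n (∏ i ∈ s, f i) := by
  classical
  induction s using Finset.induction_on with
  | empty => rw [Finset.prod_empty]; exact approx_one n
  | insert i s hi ih =>
    rw [Finset.prod_insert hi]
    exact ApproxAt.mul h𝒲 hw (hf i (Finset.mem_insert_self i s))
      (ih fun j hj => hf j (Finset.mem_insert_of_mem hj))

/-- comparison of valuations of elements of `F` in `V` and in `W` over `V` -/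
theorem Over.val_lt_val_iff {W : ValuationSubring L} (h : Over V W) (a : F) {b : F}
    (hb : b ≠ 0) : W.valuation (ι a) < W.valuation (ι b) ↔ V.valuation a < V.valuation b := by
  have hW0 : 0 < W.valuation (ι b) := zero_lt_iff.2 (h.val_ne_zero hb)
  have hV0 : 0 < V.valuation b := zero_lt_iff.2 ((Valuation.ne_zero_iff _).2 hb)
  have e1 : W.valuation (ι a) < W.valuation (ι b) ↔ W.valuation (ι (a * b⁻¹)) < 1 := by
    rw [map_mul, map_mul, map_inv₀, map_inv₀, mul_inv_lt_iff₀ hW0, one_mul]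
  have e2 : V.valuation a < V.valuation b ↔ V.valuation (a * b⁻¹) < 1 := by
    rw [map_mul, map_inv₀, mul_inv_lt_iff₀ hV0, one_mul]
  rw [e1, e2, h.val_lt_one_iff]

/-- **A wildly normalised Kummer generator is approximable.** -/
theorem approx_of_pow_eq_wild (h𝒲 : ∀ W ∈ 𝒲, Over V W) (hw : IsUnif V w) (hne : 𝒲.Nonempty)
    {p : ℕ} (hp : p.Prime) {ζ : F} (hζ : IsPrimitiveRoot ζ p) {y : L} {h : F}
    (hy : y ^ p = ι h)
    (hy1 : ∀ W ∈ 𝒲, W.valuation (y - 1) < W.valuation (ι (ζ - 1))) : Approx V w 𝒲 y := by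
  classical
  obtain ⟨W₀, hW₀⟩ := hne
  have hζL : IsPrimitiveRoot (ι ζ) p := hζ.map_of_injective (algebraMap F L).injective
  have hlam0 : ζ - 1 ≠ 0 := sub_ne_zero.2 (hζ.ne_one hp.one_lt)
  have hιlam0 : ι (ζ - 1) ≠ 0 := (map_ne_zero _).2 hlam0
  have hlamV : ζ - 1 ∈ V := by
    rw [← ValuationSubring.valuation_le_one_iff]
    exact val_sub_one_le_one _ hp hζ
  -- the constants `e j`
  have he_mem : ∀ j : ℕ, (∑ k ∈ Finset.range j, ζ ^ k) ∈ V := fun j => by
    rw [← ValuationSubring.valuation_le_one_iff]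
    exact val_geom_sum_le_one _ hp.ne_zero hζ.pow_eq_one j
  have he_unit : ∀ W ∈ 𝒲, ∀ j ∈ (Finset.range p).erase 0,
      W.valuation (ι (∑ k ∈ Finset.range j, ζ ^ k)) = 1 := by
    intro W _ j hj
    have hj' := Finset.mem_erase.1 hj
    have hpj : ¬ p ∣ j := fun hd =>
      hj'.1 (Nat.eq_zero_of_dvd_of_lt hd (Finset.mem_range.1 hj'.2))
    have e : ι (∑ k ∈ Finset.range j, ζ ^ k) = ∑ k ∈ Finset.range j, (ι ζ) ^ k := by
      simp only [map_sum, map_pow]
    rw [e]
    exact val_geom_sum_eq_one _ hp hζL hpj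
  set θ : L := (y - 1) * (ι (ζ - 1))⁻¹ with hθ
  have hθlt : ∀ W ∈ 𝒲, W.valuation θ < 1 := by
    intro W hW
    have hpos : 0 < W.valuation (ι (ζ - 1)) :=
      zero_lt_iff.2 ((Valuation.ne_zero_iff _).2 hιlam0)
    rw [hθ, map_mul, map_inv₀, mul_inv_lt_iff₀ hpos, one_mul]
    exact hy1 W hW
  have hyθ : y = 1 + ι (ζ - 1) * θ := by
    rw [hθ]
    field_simp
    ring
  -- the unit `U`
  set U : L := ∏ j ∈ (Finset.range p).erase 0, (θ - ι (∑ k ∈ Finset.range j, ζ ^ k)) with hU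
  have hUu : ∀ W ∈ 𝒲, W.valuation U = 1 := by
    intro W hW
    rw [hU, map_prod]
    refine Finset.prod_eq_one fun j hj => ?_
    rw [Valuation.map_sub_eq_of_lt_right, he_unit W hW j hj]
    rw [he_unit W hW j hj]
    exact hθlt W hW
  have hU0 : U ≠ 0 := by
    intro h0
    have := hUu W₀ hW₀
    rw [h0, map_zero] at this
    exact zero_ne_one this
  -- the identity `h - 1 = λ^p θ U`
  have hfactor : ∀ j : ℕ, y - (ι ζ) ^ j = ι (ζ - 1) * (θ - ι (∑ k ∈ Finset.range j, ζ ^ k)) := by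
    intro j
    have e1 : ι (ζ - 1) * ι (∑ k ∈ Finset.range j, ζ ^ k) = (ι ζ) ^ j - 1 := by
      rw [← map_mul, mul_geom_sum, map_sub, map_pow, map_one]
    rw [mul_sub, e1]
    nth_rewrite 1 [hyθ]
    ring
  have hident : ι (h - 1) = ι (ζ - 1) ^ p * (θ * U) := by
    have h1 := prod_range_sub_pow hp.pos hζL y
    rw [hy] at h1
    have h0 : 0 ∈ Finset.range p := Finset.mem_range.2 hp.pos
    rw [map_sub, map_one, ← h1, Finset.prod_congr rfl fun j _ => hfactor j,
      Finset.prod_mul_distrib, Finset.prod_const, Finset.card_range,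
      ← Finset.mul_prod_erase _ _ h0, Finset.range_zero, Finset.sum_empty, map_zero, sub_zero]
  -- `z = (h - 1) / λ^p` is a nonunit of `V`
  set z : F := (h - 1) * ((ζ - 1) ^ p)⁻¹ with hz
  have hιz : ι z = θ * U := by
    rw [hz, map_mul, hident, map_inv₀, map_pow]
    field_simp
  have hzlt : W₀.valuation (ι z) < 1 := by
    rw [hιz, map_mul, hUu W₀ hW₀, mul_one]
    exact hθlt W₀ hW₀
  have hzV : z ∈ V := ((h𝒲 W₀ hW₀).val_le_one_iff _).1 hzlt.le
  have hz' : z * w⁻¹ ∈ V := by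
    refine hw.mul_inv_mem hzV ?_
    by_cases h0 : z = 0
    · exact Or.inl h0
    · exact Or.inr fun hinv => absurd ((h𝒲 W₀ hW₀).val_eq_one h0 hzV hinv) hzlt.ne
  set z' : F := z * w⁻¹ with hz'def
  have hwz : ι w * ι z' = ι z := by
    rw [← map_mul, hz'def, mul_comm w, mul_assoc, inv_mul_cancel₀ hw.ne_zero, mul_one]
  have hθeq : θ = ι w * (ι z' * U⁻¹) := by
    rw [← mul_assoc, hwz, hιz, mul_assoc, mul_inv_cancel₀ hU0, mul_one]
  -- induction
  have key : ∀ n : ℕ, ApproxAt V w 𝒲 (n + 1) θ := by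
    intro n
    induction n with
    | zero =>
      have h0 : ApproxAt V w 𝒲 0 (ι z' * U⁻¹) := by
        refine ⟨0, V.zero_mem, fun W hW => ?_⟩
        rw [map_zero, sub_zero, pow_zero, map_mul, map_inv₀, hUu W hW, inv_one, mul_one]
        exact (h𝒲 W hW).val_le_one hz'
      have h1 := ApproxAt.w_mul hw h0
      rw [hθeq]
      exact h1
    | succ n ih =>
      have hUn : ApproxAt V w 𝒲 (n + 1) U :=
        approxAt_prod h𝒲 hw _ _ fun j _ =>
          ApproxAt.add ih (ApproxAt.neg (approxAt_algebraMap (he_mem j) _)) |> fun h => by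
            rwa [← sub_eq_add_neg] at h
      have hUinv : ApproxAt V w 𝒲 (n + 1) U⁻¹ :=
        ApproxAt.inv h𝒲 hw (by omega) hUn ⟨W₀, hW₀⟩ hUu
      have h2 : ApproxAt V w 𝒲 (n + 1) (ι z' * U⁻¹) :=
        ApproxAt.mul h𝒲 hw (approxAt_algebraMap hz' _) hUinv
      have h3 := ApproxAt.w_mul hw h2
      rw [hθeq]
      exact h3
  intro n
  have h1 : ApproxAt V w 𝒲 n θ := ApproxAt.mono h𝒲 hw (Nat.le_succ n) (key n)
  rw [hyθ]
  exact ApproxAt.add (approx_one _) (ApproxAt.mul h𝒲 hw (approxAt_algebraMap hlamV _) h1)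

variable {p : ℕ} {ζ : F} {κ : Type*}

/-- **Uniqueness.**  Two valuation subrings of `L = F[y_i]` over `V` which are both wildly
normalised for the Kummer generators `y_i` are equal. -/
theorem eq_of_normalized_wild (hw : IsUnif V w) (hp : p.Prime) (hζ : IsPrimitiveRoot ζ p)
    (y : κ → L) (hpow : ∀ i, ∃ h : F, y i ^ p = ι h)
    (hgen : Algebra.adjoin F (Set.range y) = ⊤)
    {W₁ W₂ : ValuationSubring L} (h₁ : Over V W₁) (h₂ : Over V W₂)
    (hy₁ : ∀ i, W₁.valuation (y i - 1) < W₁.valuation (ι (ζ - 1)))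
    (hy₂ : ∀ i, W₂.valuation (y i - 1) < W₂.valuation (ι (ζ - 1))) :
    W₁ = W₂ := by
  set 𝒲 : Set (ValuationSubring L) := {W₁, W₂} with h𝒲def
  have hm₁ : W₁ ∈ 𝒲 := Set.mem_insert _ _
  have hm₂ : W₂ ∈ 𝒲 := Set.mem_insert_of_mem _ (Set.mem_singleton _)
  have h𝒲 : ∀ W ∈ 𝒲, Over V W := by
    intro W hW
    rcases Set.mem_insert_iff.1 hW with rfl | hW
    · exact h₁
    · rw [Set.mem_singleton_iff.1 hW]; exact h₂
  have hy : ∀ i, Approx V w 𝒲 (y i) := by
    intro i
    obtain ⟨h, hh⟩ := hpow i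
    refine approx_of_pow_eq_wild h𝒲 hw ⟨W₁, hm₁⟩ hp hζ hh ?_
    intro W hW
    rcases Set.mem_insert_iff.1 hW with rfl | hW
    · exact hy₁ i
    · rw [Set.mem_singleton_iff.1 hW]; exact hy₂ i
  ext b
  rw [mem_iff_approx h𝒲 hw y hy hgen hm₁ b, mem_iff_approx h𝒲 hw y hy hgen hm₂ b]

/-- every element of a wildly normalised `W` is approximable by `V` -/
theorem approx_of_normalized_wild (hw : IsUnif V w) (hp : p.Prime) (hζ : IsPrimitiveRoot ζ p)
    (y : κ → L) (hpow : ∀ i, ∃ h : F, y i ^ p = ι h)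
    (hgen : Algebra.adjoin F (Set.range y) = ⊤)
    {W : ValuationSubring L} (hW : Over V W)
    (hy : ∀ i, W.valuation (y i - 1) < W.valuation (ι (ζ - 1)))
    {b : L} (hb : b ∈ W) : Approx V w {W} b := by
  have h𝒲 : ∀ W' ∈ ({W} : Set (ValuationSubring L)), Over V W' := by
    intro W' hW'
    rw [Set.mem_singleton_iff.1 hW']; exact hW
  have hyA : ∀ i, Approx V w {W} (y i) := by
    intro i
    obtain ⟨h, hh⟩ := hpow i
    refine approx_of_pow_eq_wild h𝒲 hw ⟨W, Set.mem_singleton _⟩ hp hζ hh ?_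
    intro W' hW'
    rw [Set.mem_singleton_iff.1 hW']; exact hy i
  exact (mem_iff_approx h𝒲 hw y hyA hgen (Set.mem_singleton _) b).1 hb

/-- **Residue degree one** (strong form): `W = V + wⁿ W` for all `n`. -/
theorem exists_sub_val_le_of_normalized_wild (hw : IsUnif V w) (hp : p.Prime)
    (hζ : IsPrimitiveRoot ζ p) (y : κ → L) (hpow : ∀ i, ∃ h : F, y i ^ p = ι h)
    (hgen : Algebra.adjoin F (Set.range y) = ⊤)
    {W : ValuationSubring L} (hW : Over V W)
    (hy : ∀ i, W.valuation (y i - 1) < W.valuation (ι (ζ - 1)))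
    {b : L} (hb : b ∈ W) (n : ℕ) :
    ∃ a ∈ V, W.valuation (b - ι a) ≤ W.valuation (ι w) ^ n := by
  obtain ⟨a, ha, h⟩ := approx_of_normalized_wild hw hp hζ y hpow hgen hW hy hb n
  exact ⟨a, ha, h W (Set.mem_singleton _)⟩

/-- **Ramification index one**: `𝔪_W = w W`. -/
theorem val_le_w_of_normalized_wild (hw : IsUnif V w) (hp : p.Prime)
    (hζ : IsPrimitiveRoot ζ p) (y : κ → L) (hpow : ∀ i, ∃ h : F, y i ^ p = ι h)
    (hgen : Algebra.adjoin F (Set.range y) = ⊤)
    {W : ValuationSubring L} (hW : Over V W)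
    (hy : ∀ i, W.valuation (y i - 1) < W.valuation (ι (ζ - 1)))
    {b : L} (hb : W.valuation b < 1) : W.valuation b ≤ W.valuation (ι w) := by
  have hbW : b ∈ W := (ValuationSubring.valuation_le_one_iff _ _).1 hb.le
  obtain ⟨a, ha, h⟩ := exists_sub_val_le_of_normalized_wild hw hp hζ y hpow hgen hW hy hbW 1
  rw [pow_one] at h
  have ha1 : W.valuation (ι a) < 1 := by
    have e : ι a = b + -(b - ι a) := by ring
    rw [e]
    refine Valuation.map_add_lt _ hb ?_
    rw [Valuation.map_neg]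
    exact h.trans_lt (hW.val_w_lt_one hw)
  have e : b = (b - ι a) + ι a := by ring
  rw [e]
  exact Valuation.map_add_le _ h (hW.val_le_w hw ha1)

end Normalized

/-- Hypotheses of wild COVER-SPLIT. -/
structure KummerSplitW {F L : Type*} [Field F] [Field L] [Algebra F L]
    (V : ValuationSubring F) (w : F) (p : ℕ) (ζ : F) {κ : Type*}
    (y : κ → L) (g c : κ → F) : Prop where
  unif : IsUnif V w
  prime : p.Prime
  prim : IsPrimitiveRoot ζ p
  pow : ∀ i, y i ^ p = algebraMap F L (g i)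
  g_ne : ∀ i, g i ≠ 0
  g_mem : ∀ i, g i ∈ V
  g_inv : ∀ i, (g i)⁻¹ ∈ V
  c_mem : ∀ i, c i ∈ V
  cong : ∀ i, V.valuation (g i - c i ^ p) < V.valuation ((ζ - 1) ^ p)
  gen : Algebra.adjoin F (Set.range y) = ⊤

namespace KummerSplitW

variable {F L : Type*} [Field F] [Field L] [Algebra F L]

local notation "ι" => algebraMap F L

variable {V : ValuationSubring F} {w : F} {p : ℕ} {ζ : F} {κ : Type*}
  {y : κ → L} {g c : κ → F}

section Base

variable (S : KummerSplitW V w p ζ y g c)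
include S

theorem lam_ne_zero : ζ - 1 ≠ 0 := sub_ne_zero.2 (S.prim.ne_one S.prime.one_lt)

theorem val_lam_le_one : V.valuation (ζ - 1) ≤ 1 := val_sub_one_le_one _ S.prime S.prim

theorem cong_lt_one (i : κ) : V.valuation (g i - c i ^ p) < 1 := by
  refine (S.cong i).trans_le ?_
  rw [map_pow]
  exact pow_le_one₀ zero_le S.val_lam_le_one

theorem val_g (i : κ) : V.valuation (g i) = 1 := by
  have h1 : V.valuation (g i) ≤ 1 := (ValuationSubring.valuation_le_one_iff _ _).2 (S.g_mem i)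
  have h2 : V.valuation (g i)⁻¹ ≤ 1 := (ValuationSubring.valuation_le_one_iff _ _).2 (S.g_inv i)
  rw [map_inv₀] at h2
  have hpos : 0 < V.valuation (g i) := zero_lt_iff.2 ((Valuation.ne_zero_iff _).2 (S.g_ne i))
  exact le_antisymm h1 ((inv_le_one₀ hpos).1 h2)

theorem val_c (i : κ) : V.valuation (c i) = 1 := by
  have h1 : V.valuation (c i ^ p) = 1 := by
    have e : c i ^ p = g i + -(g i - c i ^ p) := by ring
    rw [e, Valuation.map_add_eq_of_lt_left, S.val_g]
    rw [Valuation.map_neg, S.val_g]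
    exact S.cong_lt_one i
  rw [map_pow] at h1
  exact (pow_eq_one_iff_of_nonneg zero_le S.prime.ne_zero).1 h1

theorem val_zeta : V.valuation ζ = 1 := val_root_eq_one _ S.prime.ne_zero S.prim.pow_eq_one

/-- the constants `d = c_i ζ^a` -/
theorem val_d (i : κ) (a : ℕ) : V.valuation (c i * ζ ^ a) = 1 := by
  rw [map_mul, map_pow, S.val_c, S.val_zeta, one_pow, one_mul]

theorem d_ne_zero (i : κ) (a : ℕ) : c i * ζ ^ a ≠ 0 := by
  intro h
  have := S.val_d i a
  rw [h, map_zero] at this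
  exact zero_ne_one this

theorem d_mem (i : κ) (a : ℕ) : c i * ζ ^ a ∈ V := by
  rw [← ValuationSubring.valuation_le_one_iff, S.val_d]

theorem d_inv_mem (i : κ) (a : ℕ) : (c i * ζ ^ a)⁻¹ ∈ V := by
  rw [← ValuationSubring.valuation_le_one_iff, map_inv₀, S.val_d, inv_one]

theorem d_pow (i : κ) (a : ℕ) : (c i * ζ ^ a) ^ p = c i ^ p := by
  rw [mul_pow, ← pow_mul, mul_comm a p, pow_mul, S.prim.pow_eq_one, one_pow, mul_one]

theorem y_ne_zero (i : κ) : y i ≠ 0 := by
  intro h
  have := S.pow i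
  rw [h, zero_pow S.prime.ne_zero] at this
  exact S.g_ne i ((map_eq_zero _).1 this.symm)

theorem ιlam_ne_zero : ι (ζ - 1) ≠ 0 := (map_ne_zero _).2 S.lam_ne_zero

theorem primL : IsPrimitiveRoot (ι ζ) p := S.prim.map_of_injective (algebraMap F L).injective

variable {W : ValuationSubring L}

theorem valW_lam_pos : 0 < W.valuation (ι (ζ - 1)) :=
  zero_lt_iff.2 ((Valuation.ne_zero_iff _).2 S.ιlam_ne_zero)

theorem valW_lam_le_one : W.valuation (ι (ζ - 1)) ≤ 1 := by
  rw [map_sub, map_one]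
  exact val_sub_one_le_one _ S.prime S.primL

variable (hW : Over V W)
include hW

theorem valW_d (i : κ) (a : ℕ) : W.valuation (ι (c i * ζ ^ a)) = 1 :=
  hW.val_eq_one (S.d_ne_zero i a) (S.d_mem i a) (S.d_inv_mem i a)

/-- **The type of `W`.** -/
theorem exists_type (i : κ) :
    ∃ a < p, W.valuation (y i - ι (c i * ζ ^ a)) < W.valuation (ι (ζ - 1)) := by
  have : NeZero p := ⟨S.prime.ne_zero⟩
  have hζL : IsPrimitiveRoot (ι ζ) p := S.primL
  have hc0 : ι (c i) ≠ 0 := by
    have := S.d_ne_zero i 0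
    rw [pow_zero, mul_one] at this
    exact (map_ne_zero _).2 this
  have hvc : W.valuation (ι (c i)) = 1 := by
    have := S.valW_d hW i 0
    rwa [pow_zero, mul_one] at this
  set u : L := y i * (ι (c i))⁻¹ with hu
  have hum : u ^ p - 1 = ι (g i - c i ^ p) * (ι (c i) ^ p)⁻¹ := by
    rw [hu, mul_pow, S.pow i, map_sub, map_pow, inv_pow]
    field_simp
  have hlt : W.valuation (u ^ p - 1) < W.valuation (ι (ζ - 1)) ^ p := by
    rw [hum, map_mul, map_inv₀, map_pow, hvc, one_pow, inv_one, mul_one, ← map_pow, ← map_pow]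
    exact (Over.val_lt_val_iff hW _ (pow_ne_zero _ S.lam_ne_zero)).2 (S.cong i)
  rw [← prod_range_sub_pow S.prime.pos hζL u, map_prod] at hlt
  have hex : ∃ j ∈ Finset.range p, W.valuation (u - (ι ζ) ^ j) < W.valuation (ι (ζ - 1)) := by
    by_contra hcon
    push Not at hcon
    have h1 := Finset.prod_le_prod' (s := Finset.range p)
      (f := fun _ => W.valuation (ι (ζ - 1))) (g := fun j => W.valuation (u - (ι ζ) ^ j)) hcon
    rw [Finset.prod_const, Finset.card_range] at h1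
    exact absurd hlt (not_lt.2 h1)
  obtain ⟨a, ha, hξlt⟩ := hex
  refine ⟨a, Finset.mem_range.1 ha, ?_⟩
  have e : y i - ι (c i * ζ ^ a) = ι (c i) * (u - ι ζ ^ a) := by
    rw [hu, map_mul, map_pow]
    field_simp
  rw [e, map_mul, hvc, one_mul]
  exact hξlt

/-- every `y_i - c_i ζ^a` is divisible by `λ` in every `W` over `V` -/
theorem val_sub_le (i : κ) (a : ℕ) :
    W.valuation (y i - ι (c i * ζ ^ a)) ≤ W.valuation (ι (ζ - 1)) := by
  obtain ⟨b, -, hb⟩ := S.exists_type hW i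
  have e : y i - ι (c i * ζ ^ a) =
      (y i - ι (c i * ζ ^ b)) + ι (c i) * ((ι ζ ^ b - 1) - (ι ζ ^ a - 1)) := by
    rw [map_mul, map_mul, map_pow, map_pow]; ring
  have hvc : W.valuation (ι (c i)) = 1 := by
    have := S.valW_d hW i 0
    rwa [pow_zero, mul_one] at this
  have hz : ∀ k : ℕ, W.valuation (ι ζ ^ k - 1) ≤ W.valuation (ι (ζ - 1)) := by
    intro k
    rw [← mul_geom_sum, map_mul, map_sub (algebraMap F L), map_one]
    calc W.valuation (ι ζ - 1) * W.valuation (∑ i ∈ Finset.range k, ι ζ ^ i)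
        ≤ W.valuation (ι ζ - 1) * 1 :=
          mul_le_mul' le_rfl (val_geom_sum_le_one _ S.prime.ne_zero S.primL.pow_eq_one k)
      _ = _ := mul_one _
  rw [e]
  refine Valuation.map_add_le _ hb.le ?_
  rw [map_mul, hvc, one_mul]
  exact Valuation.map_sub_le _ (hz b) (hz a)

end Base

section Norm

variable (S : KummerSplitW V w p ζ y g c) (a : κ → ℕ)

/-- the normalised generators attached to a type `a` -/
def normGen (_S : KummerSplitW V w p ζ y g c) (a : κ → ℕ) (i : κ) : L :=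
  y i * (ι (c i * ζ ^ a i))⁻¹

theorem normGen_pow (i : κ) :
    ∃ h : F, S.normGen a i ^ p = ι h := by
  refine ⟨g i * ((c i * ζ ^ a i) ^ p)⁻¹, ?_⟩
  rw [normGen, mul_pow, S.pow i, inv_pow, ← map_pow, ← map_inv₀, ← map_mul]

theorem normGen_gen : Algebra.adjoin F (Set.range (S.normGen a)) = ⊤ := by
  rw [eq_top_iff, ← S.gen]
  refine Algebra.adjoin_le ?_
  rintro _ ⟨i, rfl⟩
  have hd : ι (c i * ζ ^ a i) ≠ 0 := (map_ne_zero _).2 (S.d_ne_zero i (a i))
  have e : y i = (c i * ζ ^ a i) • S.normGen a i := by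
    rw [Algebra.smul_def, normGen]
    field_simp
  rw [e]
  exact Subalgebra.smul_mem _ (Algebra.subset_adjoin (Set.mem_range_self i)) _

theorem normGen_val {W : ValuationSubring L} (hW : Over V W)
    (ha : ∀ i, W.valuation (y i - ι (c i * ζ ^ a i)) < W.valuation (ι (ζ - 1))) (i : κ) :
    W.valuation (S.normGen a i - 1) < W.valuation (ι (ζ - 1)) := by
  have hd : ι (c i * ζ ^ a i) ≠ 0 := (map_ne_zero _).2 (S.d_ne_zero i (a i))
  have e : S.normGen a i - 1 = (y i - ι (c i * ζ ^ a i)) * (ι (c i * ζ ^ a i))⁻¹ := by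
    rw [normGen]
    field_simp
  rw [e, map_mul, map_inv₀, S.valW_d hW, inv_one, mul_one]
  exact ha i

end Norm

section Main

variable (S : KummerSplitW V w p ζ y g c)
include S

/-- **`W` is determined by its type.** -/
theorem eq_of_type {W₁ W₂ : ValuationSubring L} (h₁ : Over V W₁) (h₂ : Over V W₂)
    (a : κ → ℕ)
    (ha₁ : ∀ i, W₁.valuation (y i - ι (c i * ζ ^ a i)) < W₁.valuation (ι (ζ - 1)))
    (ha₂ : ∀ i, W₂.valuation (y i - ι (c i * ζ ^ a i)) < W₂.valuation (ι (ζ - 1))) :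
    W₁ = W₂ :=
  eq_of_normalized_wild S.unif S.prime S.prim (S.normGen a) (S.normGen_pow a) (S.normGen_gen a)
    h₁ h₂ (S.normGen_val a h₁ ha₁) (S.normGen_val a h₂ ha₂)

variable {W : ValuationSubring L} (hW : Over V W)
include hW

/-- **Residue degree one** (strong form): `W = V + wⁿ W`. -/
theorem residue_pow {b : L} (hb : b ∈ W) (n : ℕ) :
    ∃ a ∈ V, W.valuation (b - ι a) ≤ W.valuation (ι w) ^ n := by
  choose a _ ha using fun i => S.exists_type hW i
  exact exists_sub_val_le_of_normalized_wild S.unif S.prime S.prim (S.normGen a)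
    (S.normGen_pow a) (S.normGen_gen a) hW (S.normGen_val a hW ha) hb n

/-- **Residue degree one**: `W = V + 𝔪_W`. -/
theorem residue {b : L} (hb : b ∈ W) : ∃ a ∈ V, W.valuation (b - ι a) < 1 := by
  obtain ⟨a, ha, h⟩ := S.residue_pow hW hb 1
  refine ⟨a, ha, h.trans_lt ?_⟩
  rw [pow_one]
  exact hW.val_w_lt_one S.unif

/-- **Ramification index one**: `𝔪_W = w W` (valuation form). -/
theorem val_le_w {b : L} (hb : W.valuation b < 1) : W.valuation b ≤ W.valuation (ι w) := by
  choose a _ ha using fun i => S.exists_type hW i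
  exact val_le_w_of_normalized_wild S.unif S.prime S.prim (S.normGen a) (S.normGen_pow a)
    (S.normGen_gen a) hW (S.normGen_val a hW ha) hb

/-- **Ramification index one**: `𝔪_W = w W`. -/
theorem unramified {b : L} (hb : W.valuation b < 1) : b * (ι w)⁻¹ ∈ W := by
  rw [← ValuationSubring.valuation_le_one_iff, map_mul, map_inv₀,
    mul_inv_le_iff₀ (hW.val_w_pos S.unif), one_mul]
  exact S.val_le_w hW hb

/-- **Free action**: an `F`-automorphism of `L` mapping `𝔪_W` into itself is the identity. -/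
theorem free (σ : L ≃ₐ[F] L) (hσ : ∀ b, W.valuation b < 1 → W.valuation (σ b) < 1) :
    σ = AlgEquiv.refl := by
  choose a _ ha using fun i => S.exists_type hW i
  have hlpos : 0 < W.valuation (ι (ζ - 1)) := S.valW_lam_pos
  have hfix : ∀ i, σ (y i) = y i := by
    intro i
    have hy' := S.normGen_val a hW ha i
    have hy'lt1 : W.valuation (S.normGen a i - 1) < 1 := hy'.trans_le S.valW_lam_le_one
    have hy'1 : W.valuation (S.normGen a i) = 1 := val_eq_one_of_sub_one hy'lt1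
    -- `θ = (n - 1)/λ ∈ 𝔪_W`
    set θ : L := (S.normGen a i - 1) * (ι (ζ - 1))⁻¹ with hθ
    have hθlt : W.valuation θ < 1 := by
      rw [hθ, map_mul, map_inv₀, mul_inv_lt_iff₀ hlpos, one_mul]
      exact hy'
    have hσθ : W.valuation (σ θ) < 1 := hσ _ hθlt
    have hσn : σ (S.normGen a i) - S.normGen a i = ι (ζ - 1) * (σ θ - θ) := by
      have h1 : S.normGen a i = 1 + ι (ζ - 1) * θ := by
        rw [hθ]
        have := S.ιlam_ne_zero
        field_simp
        ring
      have h2 : σ (S.normGen a i) = 1 + ι (ζ - 1) * σ θ := by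
        conv_lhs => rw [h1]
        rw [map_add, map_one, map_mul, AlgEquiv.commutes]
      rw [h2]
      conv_lhs => rw [h1]
      ring
    have hy0 : y i ≠ 0 := S.y_ne_zero i
    have hd : ι (c i * ζ ^ a i) ≠ 0 := (map_ne_zero _).2 (S.d_ne_zero i (a i))
    have hn0 : S.normGen a i ≠ 0 := by
      rw [normGen]
      exact mul_ne_zero hy0 (inv_ne_zero hd)
    set ξ : L := σ (y i) * (y i)⁻¹ with hξ
    have hξm : ξ ^ p = 1 := by
      rw [hξ, mul_pow, ← map_pow, S.pow i, AlgEquiv.commutes, inv_pow, ← S.pow i]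
      exact mul_inv_cancel₀ (pow_ne_zero _ hy0)
    have hξ' : ξ = σ (S.normGen a i) * (S.normGen a i)⁻¹ := by
      rw [hξ, normGen, map_mul, map_inv₀, AlgEquiv.commutes]
      field_simp
    have hξ1 : W.valuation (ξ - 1) < W.valuation (ι ζ - 1) := by
      have e : ξ - 1 = (σ (S.normGen a i) - S.normGen a i) * (S.normGen a i)⁻¹ := by
        rw [hξ']
        field_simp
      rw [e, hσn, map_mul, map_mul, map_inv₀, hy'1, inv_one, mul_one, ← map_one (algebraMap F L),
        ← map_sub]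
      calc W.valuation (ι (ζ - 1)) * W.valuation (σ θ - θ)
          < W.valuation (ι (ζ - 1)) * 1 :=
            mul_lt_mul_of_pos_left (Valuation.map_sub_lt _ hσθ hθlt) hlpos
        _ = _ := mul_one _
    have h1 := eq_one_of_pow_eq_one_wild W.valuation S.prime S.primL hξm hξ1
    rw [hξ] at h1
    have := congrArg (· * y i) h1
    simpa [hy0] using this
  have h2 : (σ : L →ₐ[F] L) = AlgHom.id F L := by
    refine AlgHom.ext_of_adjoin_eq_top S.gen ?_
    rintro _ ⟨i, rfl⟩
    exact hfix i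
  ext b
  exact congrArg (fun φ : L →ₐ[F] L => φ b) h2

/-- **TRIV.**  A ring automorphism `τ̃` of `L` which maps `𝔪_W` into itself and is trivial
modulo `𝔪_W` on `V` is trivial modulo `𝔪_W` on `W`. -/
theorem triv (τ : L ≃+* L) (hτ : ∀ b, W.valuation b < 1 → W.valuation (τ b) < 1)
    (hτV : ∀ a ∈ V, W.valuation (τ (ι a) - ι a) < 1) {b : L} (hb : b ∈ W) :
    W.valuation (τ b - b) < 1 := by
  obtain ⟨a, ha, h⟩ := S.residue hW hb
  have e : τ b - b = (τ (b - ι a) + -(b - ι a)) + (τ (ι a) - ι a) := by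
    rw [map_sub]; ring
  rw [e]
  refine Valuation.map_add_lt _ (Valuation.map_add_lt _ (hτ _ h) ?_) (hτV a ha)
  rw [Valuation.map_neg]
  exact h

end Main

section Finite

variable (S : KummerSplitW V w p ζ y g c)
include S

/-- **Finitely many sheets.** -/
theorem finite [Finite κ] : {W : ValuationSubring L | Over V W}.Finite := by
  classical
  have hex : ∀ W : {W : ValuationSubring L | Over V W}, ∀ i : κ,
      ∃ a : Fin p, (W : ValuationSubring L).valuation (y i - ι (c i * ζ ^ (a : ℕ))) <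
        (W : ValuationSubring L).valuation (ι (ζ - 1)) := by
    intro W i
    obtain ⟨a, ha, h⟩ := S.exists_type W.2 i
    exact ⟨⟨a, ha⟩, h⟩
  choose t ht using hex
  have hinj : Function.Injective t := by
    intro W₁ W₂ h12
    apply Subtype.ext
    refine S.eq_of_type W₁.2 W₂.2 (fun i => (t W₁ i : ℕ)) (ht W₁) ?_
    intro i
    rw [h12]
    exact ht W₂ i
  exact Set.finite_coe_iff.1 (Finite.of_injective t hinj)

end Finite

end KummerSplitW

/-! ## Transitivity -/

section Trans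

variable {F L : Type*} [Field F] [Field L] [Algebra F L]

local notation "ι" => algebraMap F L

variable {V : ValuationSubring F}

/-- the intersection of all valuation subrings of `L` over `V` -/
def ringAll (L : Type*) [Field L] [Algebra F L] (V : ValuationSubring F) : Subring L where
  carrier := {b | ∀ W : ValuationSubring L, Over V W → b ∈ W}
  mul_mem' := fun ha hb W hW => W.mul_mem _ _ (ha W hW) (hb W hW)
  one_mem' := fun W _ => W.one_mem
  add_mem' := fun ha hb W hW => W.add_mem _ _ (ha W hW) (hb W hW)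
  zero_mem' := fun W _ => W.zero_mem
  neg_mem' := fun ha W hW => W.neg_mem _ (ha W hW)

theorem mem_ringAll {b : L} : b ∈ ringAll L V ↔ ∀ W : ValuationSubring L, Over V W → b ∈ W :=
  Iff.rfl

theorem ringAll_le {W : ValuationSubring L} (hW : Over V W) : ringAll L V ≤ W.toSubring :=
  fun _ hb => hb W hW

/-- the centre of a valuation subring over `V` on `ringAll` -/
def centreAll (W : ValuationSubring L) (hW : Over V W) : Ideal (ringAll L V) :=
  (IsLocalRing.maximalIdeal W).comap (Subring.inclusion (ringAll_le hW))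

theorem mem_centreAll (W : ValuationSubring L) (hW : Over V W) (s : ringAll L V) :
    s ∈ centreAll W hW ↔ W.valuation (s : L) < 1 := by
  rw [centreAll, Ideal.mem_comap, ValuationSubring.valuation_lt_one_iff]
  rfl

instance centreAll_isPrime (W : ValuationSubring L) (hW : Over V W) :
    (centreAll W hW).IsPrime :=
  Ideal.comap_isPrime _ _

theorem over_comap {W : ValuationSubring L} (hW : Over V W) (σ : L ≃ₐ[F] L) :
    Over V (W.comap (σ : L →+* L)) := by
  intro a
  rw [ValuationSubring.mem_comap]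
  have : (σ : L →+* L) (ι a) = ι a := σ.commutes a
  rw [this]
  exact hW a

theorem val_comap_lt_one_iff (W : ValuationSubring L) (σ : L ≃ₐ[F] L) (b : L) :
    (W.comap (σ : L →+* L)).valuation b < 1 ↔ W.valuation (σ b) < 1 := by
  by_cases hb : b = 0
  · simp [hb]
  have hσb : σ b ≠ 0 := fun h0 => hb (σ.injective (by rw [h0, map_zero]))
  have e1 : (W.comap (σ : L →+* L)).valuation b < 1 ↔ b⁻¹ ∉ W.comap (σ : L →+* L) := by
    rw [← ValuationSubring.valuation_le_one_iff, map_inv₀,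
      inv_le_one₀ (zero_lt_iff.2 ((Valuation.ne_zero_iff _).2 hb)), not_le]
  have e2 : W.valuation (σ b) < 1 ↔ (σ b)⁻¹ ∉ W := by
    rw [← ValuationSubring.valuation_le_one_iff, map_inv₀,
      inv_le_one₀ (zero_lt_iff.2 ((Valuation.ne_zero_iff _).2 hσb)), not_le]
  rw [e1, e2, ValuationSubring.mem_comap]
  have : (σ : L →+* L) b⁻¹ = (σ b)⁻¹ := map_inv₀ σ b
  rw [this]

variable {w : F} {p : ℕ} {ζ : F} {κ : Type*} {y : κ → L} {g c : κ → F}

/-- **Transitivity.**  For `L / F` finite Galois, any two valuation subrings of `L` over `V` are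
conjugate under `Gal(L/F)`. -/
theorem KummerSplitW.trans (S : KummerSplitW V w p ζ y g c) [FiniteDimensional F L]
    [IsGalois F L] {W W' : ValuationSubring L} (hW : Over V W) (hW' : Over V W') :
    ∃ σ : L ≃ₐ[F] L, W.comap (σ : L →+* L) = W' := by
  classical
  by_contra hcon
  push Not at hcon
  choose a' _ ha' using fun i => S.exists_type hW' i
  have hnot : ¬ ∃ σ ∈ (Finset.univ : Finset (L ≃ₐ[F] L)),
      centreAll W' hW' ≤ centreAll (W.comap (σ : L →+* L)) (over_comap hW σ) := by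
    rintro ⟨σ, -, hle⟩
    apply hcon σ
    refine S.eq_of_type (over_comap hW σ) hW' a' ?_ ha'
    intro i
    set Z : L := (y i - ι (c i * ζ ^ a' i)) * (ι (ζ - 1))⁻¹ with hZ
    have hZmem : Z ∈ ringAll L V := by
      intro W'' hW''
      rw [← ValuationSubring.valuation_le_one_iff, hZ, map_mul, map_inv₀,
        mul_inv_le_iff₀ S.valW_lam_pos, one_mul]
      exact S.val_sub_le hW'' i (a' i)
    have h1 : (⟨Z, hZmem⟩ : ringAll L V) ∈ centreAll W' hW' := by
      rw [mem_centreAll]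
      show W'.valuation Z < 1
      rw [hZ, map_mul, map_inv₀, mul_inv_lt_iff₀ S.valW_lam_pos, one_mul]
      exact ha' i
    have h2 := (mem_centreAll _ _ _).1 (hle h1)
    change (W.comap (σ : L →+* L)).valuation Z < 1 at h2
    rw [hZ, map_mul, map_inv₀, mul_inv_lt_iff₀ S.valW_lam_pos, one_mul] at h2
    exact h2
  rw [← Ideal.subset_union_prime (1 : L ≃ₐ[F] L) 1
    (fun σ _ _ _ => centreAll_isPrime _ _)] at hnot
  obtain ⟨x, hxP', hxσ⟩ := Set.not_subset.1 hnot
  have hxlt : W'.valuation (x : L) < 1 := (mem_centreAll _ _ _).1 hxP'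
  have hxunit : ∀ σ : L ≃ₐ[F] L, W.valuation (σ (x : L)) = 1 := by
    intro σ
    have h1 : x ∉ centreAll (W.comap (σ : L →+* L)) (over_comap hW σ) := by
      intro h
      apply hxσ
      simp only [Set.mem_iUnion]
      exact ⟨σ, Finset.mem_coe.2 (Finset.mem_univ σ), h⟩
    have hxW : σ (x : L) ∈ W := ringAll_le (over_comap hW σ) x.2
    have hle : W.valuation (σ (x : L)) ≤ 1 := (W.valuation_le_one_iff _).2 hxW
    rcases lt_or_eq_of_le hle with hlt | heq
    · exact absurd ((mem_centreAll _ _ _).2 ((val_comap_lt_one_iff W σ _).2 hlt)) h1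
    · exact heq
  -- the norm
  obtain ⟨n, hn⟩ : ∃ n : F, ι n = ∏ σ : L ≃ₐ[F] L, σ (x : L) := by
    have hfix : ∀ τ : L ≃ₐ[F] L,
        τ (∏ σ : L ≃ₐ[F] L, σ (x : L)) = ∏ σ : L ≃ₐ[F] L, σ (x : L) := by
      intro τ
      rw [map_prod]
      exact Fintype.prod_equiv (Equiv.mulLeft τ) _ _ (fun σ => rfl)
    have hbot := (IsGalois.mem_bot_iff_fixed (F := F) (E := L) _).2 hfix
    rw [IntermediateField.mem_bot] at hbot
    exact hbot
  have hnW : W.valuation (ι n) = 1 := by
    rw [hn, map_prod]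
    exact Finset.prod_eq_one (fun σ _ => hxunit σ)
  have hnW' : W'.valuation (ι n) < 1 := by
    rw [hn, ← Finset.mul_prod_erase Finset.univ (fun σ : L ≃ₐ[F] L => σ (x : L))
      (Finset.mem_univ (1 : L ≃ₐ[F] L)), map_mul]
    have h1 : W'.valuation ((1 : L ≃ₐ[F] L) (x : L)) < 1 := hxlt
    have h2 : W'.valuation (∏ σ ∈ Finset.univ.erase (1 : L ≃ₐ[F] L), σ (x : L)) ≤ 1 := by
      rw [W'.valuation_le_one_iff]
      refine Subring.prod_mem W'.toSubring (fun σ _ => ?_)
      exact ringAll_le (over_comap hW' σ) x.2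
    calc W'.valuation ((1 : L ≃ₐ[F] L) (x : L)) *
          W'.valuation (∏ σ ∈ Finset.univ.erase (1 : L ≃ₐ[F] L), σ (x : L))
        ≤ W'.valuation ((1 : L ≃ₐ[F] L) (x : L)) * 1 := mul_le_mul' le_rfl h2
      _ = W'.valuation ((1 : L ≃ₐ[F] L) (x : L)) := mul_one _
      _ < 1 := h1
  have h3 : V.valuation n < 1 := (hW'.val_lt_one_iff n).1 hnW'
  have h4 : W.valuation (ι n) < 1 := (hW.val_lt_one_iff n).2 h3
  rw [hnW] at h4
  exact lt_irrefl _ h4

/-- transitivity in the shape of `H12.SheetsConclusion.trans` -/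
theorem KummerSplitW.trans_mem (S : KummerSplitW V w p ζ y g c) [FiniteDimensional F L]
    [IsGalois F L] {W W' : ValuationSubring L} (hW : Over V W) (hW' : Over V W') :
    ∃ σ : L ≃ₐ[F] L, ∀ b, b ∈ W ↔ σ b ∈ W' := by
  obtain ⟨σ, hσ⟩ := S.trans hW' hW
  refine ⟨σ, fun b => ?_⟩
  rw [← hσ, ValuationSubring.mem_comap]
  rfl

/-- freeness in the shape of `H12.SheetsConclusion.free` -/
theorem KummerSplitW.free_mem (S : KummerSplitW V w p ζ y g c) {W : ValuationSubring L}
    (hW : Over V W) (σ : L ≃ₐ[F] L) (hσ : ∀ b, b ∈ W ↔ σ b ∈ W) : σ = 1 := by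
  refine S.free hW σ fun b hb => ?_
  by_cases hb0 : b = 0
  · rw [hb0, map_zero, map_zero]; exact zero_lt_one
  have hσb : σ b ≠ 0 := fun h0 => hb0 (σ.injective (by rw [h0, map_zero]))
  have e1 : W.valuation b < 1 ↔ b⁻¹ ∉ W := by
    rw [← ValuationSubring.valuation_le_one_iff, map_inv₀,
      inv_le_one₀ (zero_lt_iff.2 ((Valuation.ne_zero_iff _).2 hb0)), not_le]
  have e2 : W.valuation (σ b) < 1 ↔ (σ b)⁻¹ ∉ W := by
    rw [← ValuationSubring.valuation_le_one_iff, map_inv₀,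
      inv_le_one₀ (zero_lt_iff.2 ((Valuation.ne_zero_iff _).2 hσb)), not_le]
  rw [e2, ← map_inv₀, ← hσ]
  exact e1.1 hb

end Trans

end Fermat.Agent.Ribet.H883
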