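/-
RIBET row 38, WALL-p (helper883): the two `W`-form inputs of
`H944.Wall.wallGood_of_filtration` that are pure Galois theory of `W[p]`:

* `notMultTypeW : Wall.NotMultTypeWStatement`  (NMT-W): an irreducible `W[p]` is not of
  multiplicative type at `p` (`det = χ`, `H403.det_eq_of_apply_root`, and `χ` is ramified at `p`);
* `nonEisW : Wall.NonEisWStatement`            (NE-W): the eigensystem of an irreducible `W[p]`
  is not Eisenstein (`H523.exists_prime_not_eisenstein`).
-/
import Fermat.Agent.Ribet.H944.WallSpec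
import Fermat.Agent.Ribet.H403.DetFrey
import Fermat.Agent.Ribet.H52.TraceFormulaW
import Fermat.Agent.Ribet.H523.NonEisenstein

set_option autoImplicit false

open WeierstrassCurve WeierstrassCurve.Affine WeierstrassCurve.Affine.Point

namespace Fermat.Agent.Ribet.H883

open Fermat.Agent.Ribet.H944.Wall Fermat.Agent.S55.H414

/-- **(NMT-W)** an irreducible `W[p]` (`p` odd) is not of multiplicative type at `p`. -/
theorem notMultTypeW : NotMultTypeWStatement := by
  intro W p hΔ hp hp2 hirr A hA H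
  have : Fact p.Prime := ⟨hp⟩
  obtain ⟨σ, hσ, hne⟩ := Fermat.Agent.Ribet.H403.exists_inertia_cycloPow_ne_one p hp2 A hA
  apply hne
  set c : ℕ := ((cycloPow p σ : (ZMod p)ˣ) : ZMod p).val with hc
  have hroot : ∀ ζ : AlgebraicClosure ℚ, ζ ^ p = 1 → σ ζ = ζ ^ c :=
    fun ζ hζ => Fermat.Agent.Ribet.H403.apply_root_eq_pow_cycloPow p σ ζ hζ
  have hsc : ∀ x : ETorsion (W.map (Int.castRingHom ℚ)) p, σ • x = c • x := H σ hσ c hroot
  have hdet := Fermat.Agent.Ribet.H403.det_eq_of_apply_root W p hΔ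
    (Fermat.Agent.Ribet.H52.exists_nonscalar_of_irreducible_h52 W hΔ p hirr) σ c hroot
  have hΔQ : (W.map (Int.castRingHom ℚ)).Δ ≠ 0 := by
    rw [WeierstrassCurve.map_Δ]
    simpa using hΔ
  have hdim : Module.finrank (ZMod p) (ETorsion (W.map (Int.castRingHom ℚ)) p) = 2 :=
    Fermat.Agent.Ribet.H403.finrank_tors (W.map (Int.castRingHom ℚ)) hΔQ p
  have hend : galoisRepModuleEnd (S := ℚ) (K := AlgebraicClosure ℚ)
      (W.map (Int.castRingHom ℚ)) p σ
      = (c : ZMod p) •
        (LinearMap.id : ETorsion (W.map (Int.castRingHom ℚ)) p →ₗ[ZMod p] _) := by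
    apply LinearMap.ext
    intro x
    rw [galoisRepModuleEnd_apply, hsc x, LinearMap.smul_apply, LinearMap.id_apply,
      Nat.cast_smul_eq_nsmul]
  rw [hend, LinearMap.det_smul, LinearMap.det_id, mul_one, hdim] at hdet
  have hcu : (c : ZMod p) = ((cycloPow p σ : (ZMod p)ˣ) : ZMod p) := by
    rw [hc, ZMod.natCast_zmod_val]
  have hc0 : (c : ZMod p) ≠ 0 := by
    rw [hcu]
    exact Units.ne_zero _
  have hc1 : (c : ZMod p) = 1 := by
    have h : (c : ZMod p) * (c : ZMod p) = (c : ZMod p) * 1 := by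
      rw [mul_one, ← pow_two]
      exact hdet
    exact mul_left_cancel₀ hc0 h
  apply Units.ext
  rw [← hcu, hc1, Units.val_one]

/-- **(NE-W)** the eigensystem of an irreducible `W[p]` is not Eisenstein. -/
theorem nonEisW : NonEisWStatement := by
  intro W p hΔ hp _ hirr S
  have hΔQ : (W.map (Int.castRingHom ℚ)).Δ ≠ 0 := by
    rw [WeierstrassCurve.map_Δ]
    simpa using hΔ
  obtain ⟨ℓ, hℓ, hℓS, -, hne⟩ :=
    Fermat.Agent.Ribet.H523.exists_prime_not_eisenstein (W.map (Int.castRingHom ℚ)) hΔQ W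
      ⟨1, one_smul _ _⟩ p hp hirr S
  exact ⟨ℓ, hℓ, hℓS, hne⟩

end Fermat.Agent.Ribet.H883
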